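import Fermat.Agent.S05.Formulas

set_option autoImplicit false

namespace Fermat.Agent.S05

open WeierstrassCurve WeierstrassCurve.Affine WeierstrassCurve.Affine.Point

section ValAux

variable {K : Type*} [Field K] {Γ₀ : Type*} [LinearOrderedCommGroupWithZero Γ₀]
  (v : Valuation K Γ₀)

lemma val_mul_le_one {a b : K} (ha : v a ≤ 1) (hb : v b ≤ 1) : v (a * b) ≤ 1 := by
  rw [map_mul]; exact mul_le_one' ha hb

lemma val_add_le_one {a b : K} (ha : v a ≤ 1) (hb : v b ≤ 1) : v (a + b) ≤ 1 :=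
  v.map_add_le ha hb

lemma val_sub_le_one {a b : K} (ha : v a ≤ 1) (hb : v b ≤ 1) : v (a - b) ≤ 1 :=
  v.map_sub_le ha hb

lemma val_natCast_le_one (n : ℕ) : v (n : K) ≤ 1 := by
  induction n with
  | zero => simp
  | succ n ih => rw [Nat.cast_succ]; exact v.map_add_le ih (by simp)

lemma val_mul_lt_one_left {a b : K} (ha : v a < 1) (hb : v b ≤ 1) : v (a * b) < 1 := by
  rw [map_mul]; exact mul_lt_one_of_lt_of_le ha hb

lemma val_mul_lt_one_right {a b : K} (ha : v a ≤ 1) (hb : v b < 1) : v (a * b) < 1 := by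
  rw [mul_comm]; exact val_mul_lt_one_left v hb ha

lemma val_add_lt_one {a b : K} (ha : v a < 1) (hb : v b < 1) : v (a + b) < 1 :=
  v.map_add_lt ha hb

lemma val_sub_lt_one {a b : K} (ha : v a < 1) (hb : v b < 1) : v (a - b) < 1 :=
  v.map_sub_lt ha hb

/-- A root of a monic quadratic with integral coefficients is integral. -/
lemma val_le_one_of_quadratic {l a c : K} (ha : v a ≤ 1) (hc : v c ≤ 1)
    (h : l ^ 2 + a * l = c) : v l ≤ 1 := by
  by_contra hl
  push Not at hl
  have h2 : l ^ 2 = c - a * l := by linear_combination h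
  have h3 : v l ^ 2 ≤ v l := by
    rw [← map_pow, h2]
    refine v.map_sub_le (hc.trans hl.le) ?_
    rw [map_mul]
    exact mul_le_of_le_one_left' ha
  have hpos : 0 < v l := lt_trans zero_lt_one hl
  have h4 : v l * v l ≤ v l * 1 := by simpa [sq] using h3
  have h5 : v l ≤ 1 := le_of_mul_le_mul_left h4 hpos
  exact absurd h5 (not_le.2 hl)

end ValAux

/-- Two integral points that are congruent modulo the maximal ideal, with nonsingular reduction:
their difference is `0` or has non-integral `x`-coordinate. -/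
theorem sub_eq_zero_or_nonintegral {K : Type*} [Field K] [DecidableEq K] {Γ₀ : Type*}
    [LinearOrderedCommGroupWithZero Γ₀] (v : Valuation K Γ₀) {W : WeierstrassCurve.Affine K}
    (h₁ : v W.a₁ ≤ 1) (h₂ : v W.a₂ ≤ 1) (h₃ : v W.a₃ ≤ 1) (h₄ : v W.a₄ ≤ 1)
    {P Q : W.Point} (hP : P ≠ 0) (hQ : Q ≠ 0)
    (hxP : v (xc P) ≤ 1) (hyP : v (yc P) ≤ 1) (hxQ : v (xc Q) ≤ 1) (hyQ : v (yc Q) ≤ 1)
    (hx : v (xc P - xc Q) < 1) (hy : v (yc P - yc Q) < 1)
    (hns : v (W.a₁ * yc Q - (3 * xc Q ^ 2 + 2 * W.a₂ * xc Q + W.a₄)) = 1 ∨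
      v (2 * yc Q + W.a₁ * xc Q + W.a₃) = 1) :
    P - Q = 0 ∨ 1 < v (xc (P - Q)) := by
  cases P with
  | zero => exact absurd rfl hP
  | some x1 y1 n1 =>
  cases Q with
  | zero => exact absurd rfl hQ
  | some x2 y2 n2 =>
  simp only [xc_some, yc_some] at hxP hyP hxQ hyQ hx hy hns
  have e1 := (equation_iff _ _).1 n1.1
  have e2 := (equation_iff _ _).1 n2.1
  have v2 : v (2 : K) ≤ 1 := by simpa using val_natCast_le_one v 2
  have v3 : v (3 : K) ≤ 1 := by simpa using val_natCast_le_one v 3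
  -- it suffices to derive that both partial derivatives are in the maximal ideal
  suffices H : Point.some x1 y1 n1 - Point.some x2 y2 n2 ≠ 0 →
      v (xc (Point.some x1 y1 n1 - Point.some x2 y2 n2)) ≤ 1 →
      v (W.a₁ * y2 - (3 * x2 ^ 2 + 2 * W.a₂ * x2 + W.a₄)) < 1 ∧
        v (2 * y2 + W.a₁ * x2 + W.a₃) < 1 by
    by_cases h0 : Point.some x1 y1 n1 - Point.some x2 y2 n2 = 0
    · exact Or.inl h0
    · right
      by_contra hle
      push Not at hle
      obtain ⟨hA, hB⟩ := H h0 hle
      rcases hns with h | h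
      · exact absurd h hA.ne
      · exact absurd h hB.ne
  intro h0 hle
  rw [sub_eq_add_neg, neg_some] at h0 hle
  by_cases hxx : x1 = x2
  · subst hxx
    -- `y1 ≠ y2`
    have hyy : y1 ≠ y2 := by
      rintro rfl
      exact h0 (add_of_Y_eq rfl (negY_negY _ _).symm)
    -- hence `y1 = negY x1 y2`
    have hneg : y1 = W.negY x1 y2 := by
      have : (y1 - y2) * (y1 - W.negY x1 y2) = 0 := by
        simp only [negY]
        linear_combination e1 - e2
      rcases mul_eq_zero.1 this with h | h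
      · exact absurd (sub_eq_zero.1 h) hyy
      · exact sub_eq_zero.1 h
    have hY : y1 ≠ W.negY x1 (W.negY x1 y2) := by
      rw [negY_negY]; exact hyy
    rw [add_of_Y_ne hY] at hle
    simp only [xc_some, addX] at hle
    set l := W.slope x1 x1 y1 (W.negY x1 y2) with hl
    have hslope : l * (y1 - y2) = 3 * x1 ^ 2 + 2 * W.a₂ * x1 + W.a₄ - W.a₁ * y1 := by
      rw [hl, slope_of_Y_ne rfl hY]
      have : y1 - W.negY x1 y1 = y1 - y2 := by
        rw [hneg]; simp only [negY]; ring
      rw [this]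
      have hd : y1 - y2 ≠ 0 := sub_ne_zero.2 hyy
      field_simp
    have hlint : v l ≤ 1 := by
      refine val_le_one_of_quadratic v h₁ (c := (l ^ 2 + W.a₁ * l - W.a₂ - x1 - x1) + W.a₂ + x1 + x1)
        ?_ (by ring)
      exact val_add_le_one v (val_add_le_one v (val_add_le_one v hle h₂) hxP) hxP
    constructor
    · have : W.a₁ * y2 - (3 * x1 ^ 2 + 2 * W.a₂ * x1 + W.a₄)
          = -(l * (y1 - y2)) - W.a₁ * (y1 - y2) := by
        rw [hslope]; ring
      rw [this]
      refine val_sub_lt_one v ?_ (val_mul_lt_one_right v h₁ hy)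
      rw [Valuation.map_neg]
      exact val_mul_lt_one_right v hlint hy
    · have : 2 * y2 + W.a₁ * x1 + W.a₃ = -(y1 - y2) := by
        rw [hneg]; simp only [negY]; ring
      rw [this, Valuation.map_neg]
      exact hy
  · rw [add_of_X_ne hxx] at hle
    simp only [xc_some, addX] at hle
    set l := W.slope x1 x2 y1 (W.negY x2 y2) with hl
    have hd : x1 - x2 ≠ 0 := sub_ne_zero.2 hxx
    have hslope : l * (x1 - x2) = y1 + y2 + W.a₁ * x2 + W.a₃ := by
      rw [hl, slope_of_X_ne hxx]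
      simp only [negY]
      field_simp
      ring
    have hlint : v l ≤ 1 := by
      refine val_le_one_of_quadratic v h₁ (c := (l ^ 2 + W.a₁ * l - W.a₂ - x1 - x2) + W.a₂ + x1 + x2)
        ?_ (by ring)
      exact val_add_le_one v (val_add_le_one v (val_add_le_one v hle h₂) hxP) hxQ
    have hslope2 : l * (y1 - y2) =
        x1 ^ 2 + x1 * x2 + x2 ^ 2 + W.a₂ * (x1 + x2) + W.a₄ - W.a₁ * y1 := by
      apply mul_right_cancel₀ hd
      linear_combination (y1 - y2) * hslope + e1 - e2
    constructor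
    · have : W.a₁ * y2 - (3 * x2 ^ 2 + 2 * W.a₂ * x2 + W.a₄)
          = (x1 - x2) * (x1 + 2 * x2 + W.a₂) - W.a₁ * (y1 - y2) - l * (y1 - y2) := by
        rw [hslope2]; ring
      rw [this]
      refine val_sub_lt_one v (val_sub_lt_one v (val_mul_lt_one_left v hx ?_)
        (val_mul_lt_one_right v h₁ hy)) (val_mul_lt_one_right v hlint hy)
      exact val_add_le_one v (val_add_le_one v hxP (val_mul_le_one v v2 hxQ)) h₂
    · have : 2 * y2 + W.a₁ * x2 + W.a₃ = l * (x1 - x2) - (y1 - y2) := by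
        rw [hslope]; ring
      rw [this]
      exact val_sub_lt_one v (val_mul_lt_one_right v hlint hx) hy

end Fermat.Agent.S05
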