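import Mathlib

set_option autoImplicit false

namespace Fermat.Agent.S05

section Comb

variable {G : Type*} [AddCommGroup G] [LinearOrder G] [IsOrderedAddMonoid G]

private lemma not_dvd_of_pos_lt {p : ℕ} {m : ℤ} (h0 : 0 < m) (h1 : m < p) : ¬ (p : ℤ) ∣ m := by
  intro h
  have := Int.le_of_dvd h0 h
  omega

private lemma auxA {x y β γ N : G} (e : y + x + γ = 2 • β)
    (b2 : 2 • x ≠ N → β = min (2 • x) N) (c1 : min x N ≤ γ)
    (hx : 0 < x) (hy : 0 < y) : x < N := by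
  grind

private lemma auxD {r u β γ N : G} (e : u + r + γ = 2 • β) (b1 : min (2 • r) N ≤ β)
    (b2 : 2 • r ≠ N → β = min (2 • r) N) (c2 : r < N → γ = r)
    (hrN : r < N) (huN : u < N) :
    (r + r < N → u = r + r) ∧ (r + r ≠ N) ∧ (N < r + r → u + (r + r) = 2 • N) := by
  grind

private lemma auxR {A r u α β N : G} (e : u + A + 2 • α = 2 • β)
    (a2 : A + r ≠ r → α = min (A + r) r) (b1 : min (A + r + r) N ≤ β)
    (b2 : A + r + r ≠ N → β = min (A + r + r) N) (hA : 0 < A) (huN : u < N) :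
    (A + r + r < N → u = A + r + r) ∧ (A + r + r ≠ N) ∧
      (N < A + r + r → u + (A + r + r) = 2 • N) := by
  grind

private lemma aux4 {B r s t α β N : G} (e : t + r + 2 • α = 2 • β) (a1 : min s B ≤ α)
    (b2 : s + B ≠ N → β = min (s + B) N)
    (hs : s + (B + r) = 2 • N) (hB : B < N) (hBr : N < B + r) (ht : r ≤ t) (hrN : r < N) :
    False := by
  grind

/-- General version (weaker hypothesis on `γ`, so that it also applies in residue characteristic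
`2`), with the pattern `ρ m = m • ρ 1` for `2 * m < p` as an extra conclusion. -/
theorem comb_gen
    (p : ℕ) (hp : p.Prime) (hp2 : p ≠ 2) (N : G) (ρ : ℤ → G)
    (hpos : ∀ j : ℤ, ¬ (p : ℤ) ∣ j → 0 < ρ j)
    (hneg : ∀ i j : ℤ, (p : ℤ) ∣ i + j → ρ i = ρ j)
    (hmin : ∀ j : ℤ, ¬ (p : ℤ) ∣ j → ρ 1 ≤ ρ j)
    (hR : ∀ i j : ℤ, ¬ (p : ℤ) ∣ i → ¬ (p : ℤ) ∣ j → ¬ (p : ℤ) ∣ i + j → ¬ (p : ℤ) ∣ i - j →
      ∃ α β : G, ρ (i + j) + ρ (i - j) + 2 • α = 2 • β ∧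
        min (ρ i) (ρ j) ≤ α ∧ (ρ i ≠ ρ j → α = min (ρ i) (ρ j)) ∧
        min (ρ i + ρ j) N ≤ β ∧ (ρ i + ρ j ≠ N → β = min (ρ i + ρ j) N))
    (hD : ∀ j : ℤ, ¬ (p : ℤ) ∣ j →
      ∃ β γ : G, ρ (2 * j) + ρ j + γ = 2 • β ∧
        min (2 • ρ j) N ≤ β ∧ (2 • ρ j ≠ N → β = min (2 • ρ j) N) ∧
        min (ρ j) N ≤ γ ∧ (ρ j < N → γ = ρ j)) :
    p • ρ 1 = 2 • N ∧ ∀ m : ℕ, 1 ≤ m → 2 * m < p → ρ (m : ℤ) = m • ρ 1 := by
  have hp3 : 3 ≤ p := by
    have := hp.two_le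
    omega
  have hpZ : Prime (p : ℤ) := Nat.prime_iff_prime_int.1 hp
  have h2p : ¬ (p : ℤ) ∣ 2 := not_dvd_of_pos_lt (by norm_num) (by omega)
  have h1p : ¬ (p : ℤ) ∣ 1 := not_dvd_of_pos_lt (by norm_num) (by omega)
  -- (0)
  have h0 : ∀ j : ℤ, ¬ (p : ℤ) ∣ j → ρ j < N := by
    intro j hj
    have h2j : ¬ (p : ℤ) ∣ 2 * j := fun h => (hpZ.dvd_or_dvd h).elim h2p hj
    obtain ⟨β, γ, e, b1, b2, c1, c2⟩ := hD j hj
    exact auxA e b2 c1 (hpos j hj) (hpos (2 * j) h2j)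
  obtain ⟨r, hr⟩ : ∃ r, r = ρ 1 := ⟨_, rfl⟩
  rw [← hr]
  have hr0 : 0 < r := hr ▸ hpos 1 h1p
  have hrN : r < N := hr ▸ h0 1 h1p
  -- one step
  have step : ∀ j : ℕ, j + 2 ≤ p - 1 → (j = 0 ∨ ρ (j : ℤ) = j • r) →
      ρ ((j : ℤ) + 1) = (j + 1) • r →
      ((j + 2) • r < N → ρ ((j : ℤ) + 2) = (j + 2) • r) ∧ ((j + 2) • r ≠ N) ∧
        (N < (j + 2) • r → ρ ((j : ℤ) + 2) + (j + 2) • r = 2 • N) := by
    intro j hj hj0 hj1
    have hu : ρ ((j : ℤ) + 2) < N := h0 _ (not_dvd_of_pos_lt (by omega) (by omega))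
    have e2 : (j + 2) • r = j • r + r + r := by rw [succ_nsmul, succ_nsmul]
    have e1 : (j + 1) • r = j • r + r := by rw [succ_nsmul]
    rcases Nat.eq_zero_or_pos j with rfl | hjpos
    · obtain ⟨β, γ, e, b1, b2, c1, c2⟩ := hD 1 h1p
      rw [← hr] at e b1 b2 c1 c2
      simp only [Nat.cast_zero, zero_add, mul_one] at hu e ⊢
      have := auxD e b1 b2 c2 hrN hu
      rw [two_nsmul r]
      exact this
    · have hj0' : ρ (j : ℤ) = j • r := hj0.resolve_left hjpos.ne'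
      obtain ⟨α, β, e, a1, a2, b1, b2⟩ := hR ((j : ℤ) + 1) 1
        (not_dvd_of_pos_lt (by omega) (by omega)) h1p
        (not_dvd_of_pos_lt (by omega) (by omega)) (not_dvd_of_pos_lt (by omega) (by omega))
      rw [← hr, hj1, e1] at a1 a2 b1 b2
      have i1 : (j : ℤ) + 1 + 1 = (j : ℤ) + 2 := by ring
      have i2 : (j : ℤ) + 1 - 1 = (j : ℤ) := by ring
      rw [i1, i2, hj0'] at e
      rw [e2]
      exact auxR e a2 b1 b2 (nsmul_pos hr0 hjpos.ne') hu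
  -- (2)
  have claim2 : ∀ m : ℕ, m + 1 ≤ p - 1 → (m + 1) • r < N → ρ ((m : ℤ) + 1) = (m + 1) • r := by
    intro m
    induction m using Nat.strong_induction_on with
    | _ m ih =>
      intro hm hmN
      rcases m with _ | m
      · simp [hr]
      · have lt1 : (m + 1) • r < N := by
          have : (m + 1 + 1) • r = (m + 1) • r + r := succ_nsmul _ _
          rw [this] at hmN
          exact lt_of_lt_of_le (lt_add_of_pos_right _ hr0) hmN.le
        have h1 := ih m (by omega) (by omega) lt1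
        have h00 : m = 0 ∨ ρ (m : ℤ) = m • r := by
          rcases m with _ | k
          · left; rfl
          · right
            have lt0 : (k + 1) • r < N := by
              have : (k + 1 + 1) • r = (k + 1) • r + r := succ_nsmul _ _
              rw [this] at lt1
              exact lt_of_lt_of_le (lt_add_of_pos_right _ hr0) lt1.le
            have := ih k (by omega) (by omega) lt0
            push_cast
            exact this
        have := (step m (by omega) h00 h1).1 hmN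
        push_cast
        rw [show (m : ℤ) + 1 + 1 = (m : ℤ) + 2 by ring]
        exact this
  -- (3)
  have ex : ∃ m : ℕ, N ≤ m • r ∧ m ≤ p - 1 := by
    by_contra hcon
    obtain ⟨k, hk⟩ : ∃ k, p = k + 3 := ⟨p - 3, by omega⟩
    have hlt : (k + 1 + 1) • r < N := by
      by_contra h
      exact hcon ⟨k + 1 + 1, not_lt.1 h, by omega⟩
    have h1 := claim2 (k + 1) (by omega) hlt
    have h2 : ρ (((k + 1 : ℕ) : ℤ) + 1) = ρ 1 := hneg _ _ ⟨1, by rw [hk]; push_cast; ring⟩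
    rw [h1, ← hr] at h2
    have e : (k + 1 + 1) • r = (k + 1) • r + r := succ_nsmul _ _
    rw [e] at h2
    have : 0 < (k + 1) • r := nsmul_pos hr0 (by omega)
    have h3 : (k + 1) • r = 0 := by simpa using h2
    exact this.ne' h3
  have ex' : ∃ m : ℕ, N ≤ m • r := ex.imp fun _ h => h.1
  classical
  obtain ⟨m0, hm0, hmin0, hm0p⟩ : ∃ m0 : ℕ, N ≤ m0 • r ∧ (∀ m < m0, m • r < N) ∧ m0 ≤ p - 1 := by
    obtain ⟨m, hm1, hm2⟩ := ex
    exact ⟨Nat.find ex', Nat.find_spec ex', fun m hm => not_le.1 (Nat.find_min ex' hm),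
      (Nat.find_min' ex' hm1).trans hm2⟩
  have hN0 : 0 < N := hr0.trans hrN
  obtain ⟨j, rfl⟩ : ∃ j, m0 = j + 2 := by
    rcases m0 with _ | _ | j
    · simp at hm0
      exact absurd hm0 (not_le.2 hN0)
    · simp at hm0
      exact absurd hm0 (not_le.2 hrN)
    · exact ⟨j, rfl⟩
  have hB : (j + 1) • r < N := hmin0 (j + 1) (by omega)
  have hρ1 : ρ ((j : ℤ) + 1) = (j + 1) • r := claim2 j (by omega) hB
  have hρ0 : j = 0 ∨ ρ (j : ℤ) = j • r := by
    rcases j with _ | k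
    · left; rfl
    · right
      have := claim2 k (by omega) (hmin0 (k + 1) (by omega))
      push_cast
      exact this
  obtain ⟨-, s2, s3⟩ := step j hm0p hρ0 hρ1
  have hgt : N < (j + 2) • r := lt_of_le_of_ne hm0 (Ne.symm s2)
  have hs := s3 hgt
  have e2 : (j + 2) • r = (j + 1) • r + r := succ_nsmul _ _
  -- (4)
  have hdvd : (p : ℤ) ∣ 2 * (j : ℤ) + 3 := by
    by_contra hnd
    obtain ⟨α, β, e, a1, a2, b1, b2⟩ := hR ((j : ℤ) + 2) ((j : ℤ) + 1)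
      (not_dvd_of_pos_lt (by omega) (by omega)) (not_dvd_of_pos_lt (by omega) (by omega))
      (by rwa [show (j : ℤ) + 2 + ((j : ℤ) + 1) = 2 * (j : ℤ) + 3 by ring])
      (by rwa [show (j : ℤ) + 2 - ((j : ℤ) + 1) = 1 by ring])
    rw [show (j : ℤ) + 2 + ((j : ℤ) + 1) = 2 * (j : ℤ) + 3 by ring,
      show (j : ℤ) + 2 - ((j : ℤ) + 1) = 1 by ring, ← hr] at e
    rw [hρ1] at a1 b2
    rw [e2] at hs hgt
    exact aux4 e a1 b2 hs hB hgt (hr ▸ hmin _ hnd) hrN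
  -- (5)
  have hpj : p = 2 * j + 3 := by
    obtain ⟨c, hc⟩ := hdvd
    have hc1 : c = 1 := by
      have h1 : 0 < c := by
        by_contra h
        have : (p : ℤ) * c ≤ 0 := mul_nonpos_of_nonneg_of_nonpos (by positivity) (by omega)
        omega
      have h2 : c < 2 := by
        by_contra h
        have : (p : ℤ) * 2 ≤ (p : ℤ) * c := mul_le_mul_of_nonneg_left (by omega) (by positivity)
        omega
      omega
    rw [hc1] at hc
    omega
  have heq : ρ ((j : ℤ) + 2) = ρ ((j : ℤ) + 1) :=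
    hneg _ _ ⟨1, by rw [hpj]; push_cast; ring⟩
  rw [heq, hρ1, e2] at hs
  refine ⟨?_, ?_⟩
  · rw [hpj, ← hs, show 2 * j + 3 = (j + 1) + ((j + 1) + 1) by ring, add_nsmul,
      succ_nsmul r (j + 1)]
  · intro m hm1 hm2
    obtain ⟨k, rfl⟩ : ∃ k, m = k + 1 := ⟨m - 1, by omega⟩
    have := claim2 k (by omega) (hmin0 (k + 1) (by omega))
    push_cast
    exact this

/-- Pure ordered-group combinatorics behind the multiplicative-reduction case. -/
theorem comb_main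
    (p : ℕ) (hp : p.Prime) (hp2 : p ≠ 2) (N : G) (ρ : ℤ → G)
    (hpos : ∀ j : ℤ, ¬ (p : ℤ) ∣ j → 0 < ρ j)
    (hneg : ∀ i j : ℤ, (p : ℤ) ∣ i + j → ρ i = ρ j)
    (hmin : ∀ j : ℤ, ¬ (p : ℤ) ∣ j → ρ 1 ≤ ρ j)
    (hR : ∀ i j : ℤ, ¬ (p : ℤ) ∣ i → ¬ (p : ℤ) ∣ j → ¬ (p : ℤ) ∣ i + j → ¬ (p : ℤ) ∣ i - j →
      ∃ α β : G, ρ (i + j) + ρ (i - j) + 2 • α = 2 • β ∧
        min (ρ i) (ρ j) ≤ α ∧ (ρ i ≠ ρ j → α = min (ρ i) (ρ j)) ∧
        min (ρ i + ρ j) N ≤ β ∧ (ρ i + ρ j ≠ N → β = min (ρ i + ρ j) N))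
    (hD : ∀ j : ℤ, ¬ (p : ℤ) ∣ j →
      ∃ β γ : G, ρ (2 * j) + ρ j + γ = 2 • β ∧
        min (2 • ρ j) N ≤ β ∧ (2 • ρ j ≠ N → β = min (2 • ρ j) N) ∧
        min (ρ j) N ≤ γ ∧ (ρ j ≠ N → γ = min (ρ j) N)) :
    p • ρ 1 = 2 • N := by
  refine (comb_gen p hp hp2 N ρ hpos hneg hmin hR ?_).1
  intro j hj
  obtain ⟨β, γ, e, b1, b2, c1, c2⟩ := hD j hj
  exact ⟨β, γ, e, b1, b2, c1, fun h => by rw [c2 h.ne, min_eq_left h.le]⟩

end Comb

end Fermat.Agent.S05
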