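import Fermat.Agent.S05.Formulas

set_option autoImplicit false

namespace Fermat.Agent.S05

open WeierstrassCurve WeierstrassCurve.Affine WeierstrassCurve.Affine.Point

/-- abstract recursion in a field -/
lemma rec_main {k : Type*} [Field k] (B : ℕ) (ξ : ℕ → k) (h1 : ξ 1 = 1) (h2 : 4 * ξ 2 = 1)
    (hrec : ∀ m, 2 ≤ m → m + 1 ≤ B → ξ (m + 1) * ξ (m - 1) * (ξ m - 1) ^ 2 = (ξ m) ^ 2)
    (hne : ∀ j : ℕ, 1 ≤ j → j + 2 ≤ B → (j : k) ≠ 0) :
    ∀ j, 1 ≤ j → j ≤ B → (j : k) ^ 2 * ξ j = 1 := by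
  intro j
  induction j using Nat.strong_induction_on with
  | _ j ih =>
    intro hj1 hjB
    rcases Nat.lt_or_ge j 3 with hj3 | hj3
    · interval_cases j
      · simp [h1]
      · push_cast; linear_combination h2
    · obtain ⟨m, rfl⟩ : ∃ m, j = m + 1 := ⟨j - 1, by omega⟩
      have E1 := ih (m - 1) (by omega) (by omega) (by omega)
      have E2 := ih m (by omega) (by omega) (by omega)
      have E3 := hrec m (by omega) hjB
      have hn := hne (m - 1) (by omega) (by omega)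
      have hc : ((m - 1 : ℕ) : k) = (m : k) - 1 := by
        rw [Nat.cast_sub (by omega)]; simp
      rw [hc] at E1 hn
      push_cast
      have key : ((m : k) - 1) ^ 2 * (((m : k) + 1) ^ 2 * ξ (m + 1) - 1) = 0 := by
        linear_combination (((m : k) - 1) ^ 2 * (m : k) ^ 4) * E3
          - ξ (m + 1) * ((m : k) ^ 2 * ξ m - (m : k) ^ 2) ^ 2 * E1
          - (ξ (m + 1) * ((m : k) ^ 2 * ξ m - 1 + 2 * (1 - (m : k) ^ 2))
              - ((m : k) - 1) ^ 2 * ((m : k) ^ 2 * ξ m + 1)) * E2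
      rcases mul_eq_zero.1 key with h | h
      · exact absurd (pow_eq_zero_iff (two_ne_zero) |>.1 h) hn
      · linear_combination h

lemma mul_lt_one_of_le_of_lt₀ {Γ₀ : Type*} [LinearOrderedCommGroupWithZero Γ₀] {a b : Γ₀}
    (ha : a ≤ 1) (hb : b < 1) : a * b < 1 :=
  lt_of_le_of_lt (by simpa using mul_le_mul' ha (le_refl b)) hb

lemma mul_lt_one_of_lt_of_le₀ {Γ₀ : Type*} [LinearOrderedCommGroupWithZero Γ₀] {a b : Γ₀}
    (ha : a < 1) (hb : b ≤ 1) : a * b < 1 := by
  rw [mul_comm]; exact mul_lt_one_of_le_of_lt₀ hb ha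

variable {K : Type*} [Field K] (A : ValuationSubring K)

lemma valuation_intCast_le_one (n : ℤ) : A.valuation (n : K) ≤ 1 :=
  (A.valuation_le_one_iff _).2 (intCast_mem A n)

lemma valuation_natCast_le_one (n : ℕ) : A.valuation (n : K) ≤ 1 :=
  (A.valuation_le_one_iff _).2 (natCast_mem A n)

lemma valuation_intCast_eq_one {q : ℕ} (hq : q.Prime) (hqA : A.valuation (q : K) < 1) {n : ℤ}
    (hn : ¬ (q : ℤ) ∣ n) : A.valuation (n : K) = 1 := by
  refine le_antisymm (valuation_intCast_le_one A n) (not_lt.1 fun hlt => ?_)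
  have hcop : IsCoprime (q : ℤ) n :=
    (Prime.coprime_iff_not_dvd (Nat.prime_iff_prime_int.1 hq)).2 hn
  obtain ⟨a, b, hab⟩ := hcop
  have h1 : (a : K) * (q : K) + (b : K) * (n : K) = 1 := by exact_mod_cast congrArg (Int.cast : ℤ → K) hab
  have h2 : A.valuation ((a : K) * (q : K) + (b : K) * (n : K)) < 1 := by
    apply Valuation.map_add_lt
    · rw [map_mul]
      exact mul_lt_one_of_le_of_lt₀ (valuation_intCast_le_one A a) hqA
    · rw [map_mul]
      exact mul_lt_one_of_le_of_lt₀ (valuation_intCast_le_one A b) hlt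
  rw [h1, map_one] at h2
  exact lt_irrefl _ h2

lemma valuation_natCast_eq_one {q : ℕ} (hq : q.Prime) (hqA : A.valuation (q : K) < 1) {n : ℕ}
    (hn : ¬ q ∣ n) : A.valuation (n : K) = 1 := by
  have := valuation_intCast_eq_one A hq hqA (n := (n : ℤ)) (by exact_mod_cast hn)
  simpa using this

lemma valuation_intCast_lt_one {q : ℕ} (hqA : A.valuation (q : K) < 1) {n : ℤ}
    (hn : (q : ℤ) ∣ n) : A.valuation (n : K) < 1 := by
  obtain ⟨m, rfl⟩ := hn
  push_cast
  rw [map_mul]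
  exact mul_lt_one_of_lt_of_le₀ hqA (valuation_intCast_le_one A m)

lemma residue_natCast_ne_zero {q : ℕ} (hq : q.Prime) (hqA : A.valuation (q : K) < 1) {n : ℕ}
    (hn : ¬ q ∣ n) : (n : IsLocalRing.ResidueField A) ≠ 0 := by
  intro h
  have h1 : IsLocalRing.residue A (n : A) = 0 := by rw [map_natCast]; exact h
  rw [IsLocalRing.residue_eq_zero_iff, A.valuation_lt_one_iff] at h1
  have h2 := valuation_natCast_eq_one A hq hqA hn
  push_cast at h1
  rw [h2] at h1
  exact lt_irrefl _ h1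

lemma residue_natCast_eq_zero {q : ℕ} (hqA : A.valuation (q : K) < 1) :
    (q : IsLocalRing.ResidueField A) = 0 := by
  have h1 : IsLocalRing.residue A (q : A) = 0 := by
    rw [IsLocalRing.residue_eq_zero_iff, A.valuation_lt_one_iff]
    push_cast
    exact hqA
  rwa [map_natCast] at h1

variable [DecidableEq K] {W : WeierstrassCurve.Affine K}

open Classical in
/-- core of the integrality argument: a point of prime order `p` (unit in `A`) whose
`x`-coordinate has maximal valuation among its nonzero multiples is integral. -/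
theorem core (p q : ℕ) (hp : p.Prime) (hp2 : p ≠ 2) (hq : q.Prime) (hpq : p ≠ q)
    (hqA : A.valuation (q : K) < 1)
    (hb₂ : W.b₂ ∈ A) (hb₄ : W.b₄ ∈ A) (hb₆ : W.b₆ ∈ A) (hb₈ : W.b₈ ∈ A)
    {R : W.Point} (hR : R ≠ 0) (hpR : p • R = 0)
    (hmax : ∀ j : ℕ, j • R ≠ 0 → A.valuation (xc (j • R)) ≤ A.valuation (xc R)) :
    A.valuation (xc R) ≤ 1 := by
  by_contra hcon
  rw [not_le] at hcon
  have : Fact p.Prime := ⟨hp⟩
  obtain ⟨x1, hx1⟩ : ∃ x1, x1 = xc R := ⟨_, rfl⟩
  rw [← hx1] at hcon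
  have hx1ne : x1 ≠ 0 := by
    intro h; rw [h, _root_.map_zero] at hcon; exact absurd hcon (by simp)
  obtain ⟨t, ht⟩ : ∃ t, t = x1⁻¹ := ⟨_, rfl⟩
  have hxt : x1 * t = 1 := by rw [ht]; exact mul_inv_cancel₀ hx1ne
  have htv : A.valuation t < 1 := by
    rw [ht, map_inv₀]; exact inv_lt_one_of_one_lt₀ hcon
  have hord : addOrderOf R = p := addOrderOf_eq_prime hpR hR
  have hmul : ∀ j : ℕ, j • R = 0 ↔ p ∣ j := fun j => by
    rw [← hord]; exact addOrderOf_dvd_iff_nsmul_eq_zero.symm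
  have hp3 : 3 ≤ p := by
    have := hp.two_le; omega
  have hmem : ∀ j : ℕ, ¬ p ∣ j → xc (j • R) * t ∈ A := by
    intro j hj
    rw [← A.valuation_le_one_iff, map_mul, ht, map_inv₀]
    have h1 := hmax j (fun h => hj ((hmul j).1 h))
    rw [← hx1] at h1
    have hv : A.valuation x1 ≠ 0 := (A.valuation.ne_zero_iff).2 hx1ne
    calc A.valuation (xc (j • R)) * (A.valuation x1)⁻¹
        ≤ A.valuation x1 * (A.valuation x1)⁻¹ := mul_le_mul' h1 le_rfl
      _ = 1 := mul_inv_cancel₀ hv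
  let Ξ : ℕ → A := fun j => if h : xc (j • R) * t ∈ A then ⟨_, h⟩ else 0
  have hΞ : ∀ j, ¬ p ∣ j → (Ξ j : K) = xc (j • R) * t := by
    intro j hj
    simp only [Ξ, dif_pos (hmem j hj)]
  let T : A := ⟨t, (A.valuation_le_one_iff _).1 htv.le⟩
  have hT : IsLocalRing.residue A T = 0 := by
    rw [IsLocalRing.residue_eq_zero_iff, A.valuation_lt_one_iff]; exact htv
  let B₂ : A := ⟨_, hb₂⟩
  let B₄ : A := ⟨_, hb₄⟩
  let B₆ : A := ⟨_, hb₆⟩
  let B₈ : A := ⟨_, hb₈⟩
  have hnd : ∀ j : ℕ, 1 ≤ j → j ≤ p - 1 → ¬ p ∣ j := by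
    intro j h1 h2 h3
    have := Nat.le_of_dvd (by omega) h3
    omega
  have hΞ1 : Ξ 1 = 1 := by
    apply Subtype.ext
    rw [hΞ 1 (hnd 1 le_rfl (by omega)), one_smul, ← hx1, hxt]; rfl
  -- duplication
  have hdup : Ξ 2 * (4 + B₂ * T + 2 * B₄ * T ^ 2 + B₆ * T ^ 3)
      = 1 - B₄ * T ^ 2 - 2 * B₆ * T ^ 3 - B₈ * T ^ 4 := by
    apply Subtype.ext
    push_cast
    rw [hΞ 2 (hnd 2 (by omega) (by omega))]
    have h2R : R + R ≠ 0 := by
      rw [← two_nsmul]; intro h; exact hnd 2 (by omega) (by omega) ((hmul 2).1 h)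
    have := xc_dbl hR h2R
    rw [← two_nsmul, ← hx1] at this
    change xc (2 • R) * t * (4 + W.b₂ * t + 2 * W.b₄ * t ^ 2 + W.b₆ * t ^ 3)
      = 1 - W.b₄ * t ^ 2 - 2 * W.b₆ * t ^ 3 - W.b₈ * t ^ 4
    have e4 : x1 ^ 4 * t ^ 4 = 1 := by rw [← mul_pow, hxt, one_pow]
    have e3 : x1 ^ 3 * t ^ 3 = 1 := by rw [← mul_pow, hxt, one_pow]
    have e2 : x1 ^ 2 * t ^ 2 = 1 := by rw [← mul_pow, hxt, one_pow]
    grind
  have hrecA : ∀ m, 2 ≤ m → m + 1 ≤ p - 1 →
      Ξ (m + 1) * Ξ (m - 1) * (Ξ m - 1) ^ 2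
        = (Ξ m) ^ 2 - B₄ * Ξ m * T ^ 2 - B₆ * (Ξ m + 1) * T ^ 3 - B₈ * T ^ 4 := by
    intro m hm2 hmp
    apply Subtype.ext
    push_cast
    rw [hΞ (m + 1) (hnd _ (by omega) hmp), hΞ (m - 1) (hnd _ (by omega) (by omega)),
      hΞ m (hnd _ (by omega) (by omega))]
    have hm0 : m • R ≠ 0 := fun h => hnd m (by omega) (by omega) ((hmul m).1 h)
    have ha : m • R + R = (m + 1) • R := by rw [succ_nsmul]
    have hs : m • R - R = (m - 1) • R := by
      obtain ⟨n, rfl⟩ : ∃ n, m = n + 1 := ⟨m - 1, by omega⟩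
      rw [succ_nsmul]; simp
    have hne : xc (m • R) ≠ xc R := by
      apply xc_ne_of_add_sub_ne_zero hm0 hR
      · rw [ha]; exact fun h => hnd (m + 1) (by omega) hmp ((hmul _).1 h)
      · rw [hs]; exact fun h => hnd (m - 1) (by omega) (by omega) ((hmul _).1 h)
    have := xc_add_mul_xc_sub hm0 hR hne
    rw [ha, hs, ← hx1] at this
    change xc ((m + 1) • R) * t * (xc ((m - 1) • R) * t) * (xc (m • R) * t - 1) ^ 2
      = (xc (m • R) * t) ^ 2 - W.b₄ * (xc (m • R) * t) * t ^ 2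
        - W.b₆ * (xc (m • R) * t + 1) * t ^ 3 - W.b₈ * t ^ 4
    grind
  have key := rec_main (min q (p - 1)) (fun j => IsLocalRing.residue A (Ξ j))
    (by simp only [hΞ1, map_one])
    (by
      have := congrArg (IsLocalRing.residue A) hdup
      simp only [map_mul, map_add, map_sub, map_pow, hT, map_one, map_ofNat] at this
      simpa [mul_comm] using this)
    (by
      intro m hm2 hmB
      have := congrArg (IsLocalRing.residue A) (hrecA m hm2 (hmB.trans (min_le_right _ _)))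
      simp only [map_mul, map_add, map_sub, map_pow, hT, map_one] at this
      simpa using this)
    (by
      intro j hj1 hjB
      apply residue_natCast_ne_zero A hq hqA
      intro hd
      have h1 := Nat.le_of_dvd (by omega) hd
      have h2 := hjB.trans (min_le_left _ _)
      omega)
  rcases Nat.lt_or_ge (p - 1) q with hlt | hge
  · -- `p < q`
    have h1 := key (p - 1) (by omega) (by rw [min_eq_right hlt.le])
    have hΞp : Ξ (p - 1) = 1 := by
      apply Subtype.ext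
      rw [hΞ (p - 1) (hnd _ (by omega) le_rfl)]
      have : (p - 1) • R = -R := by
        rw [eq_neg_iff_add_eq_zero, ← succ_nsmul, Nat.sub_add_cancel (by omega), hpR]
      rw [this, xc_neg, ← hx1, hxt]; rfl
    simp only [hΞp, map_one, mul_one] at h1
    have hc : ((p - 1 : ℕ) : IsLocalRing.ResidueField A) = (p : IsLocalRing.ResidueField A) - 1 := by
      rw [Nat.cast_sub (by omega)]; simp
    have hc2 : ((p - 2 : ℕ) : IsLocalRing.ResidueField A) = (p : IsLocalRing.ResidueField A) - 2 := by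
      rw [Nat.cast_sub (by omega)]; simp
    have h2 : (p : IsLocalRing.ResidueField A) * ((p - 2 : ℕ) : IsLocalRing.ResidueField A) = 0 := by
      rw [hc2]; rw [hc] at h1; linear_combination h1
    rcases mul_eq_zero.1 h2 with h | h
    · refine residue_natCast_ne_zero A hq hqA ?_ h
      intro hd
      exact hpq ((Nat.prime_dvd_prime_iff_eq hq hp).1 hd).symm
    · refine residue_natCast_ne_zero A hq hqA ?_ h
      intro hd
      have := Nat.le_of_dvd (by omega) hd
      omega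
  · have h1 := key q hq.one_le (by rw [min_eq_left hge])
    rw [residue_natCast_eq_zero A hqA] at h1
    simp at h1

/-- Points of prime order `p ≠ 2`, `p` different from the residue characteristic, have integral
`x`-coordinate. -/
theorem torsion_x_integral (p q : ℕ) (hp : p.Prime) (hp2 : p ≠ 2) (hq : q.Prime) (hpq : p ≠ q)
    (hqA : A.valuation (q : K) < 1)
    (hb₂ : W.b₂ ∈ A) (hb₄ : W.b₄ ∈ A) (hb₆ : W.b₆ ∈ A) (hb₈ : W.b₈ ∈ A)
    {R : W.Point} (hR : R ≠ 0) (hpR : p • R = 0) :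
    A.valuation (xc R) ≤ 1 := by
  have : Fact p.Prime := ⟨hp⟩
  have hord : addOrderOf R = p := addOrderOf_eq_prime hpR hR
  have hmul : ∀ j : ℕ, j • R = 0 ↔ p ∣ j := fun j => by
    rw [← hord]; exact addOrderOf_dvd_iff_nsmul_eq_zero.symm
  have hp3 : 3 ≤ p := by
    have := hp.two_le; omega
  obtain ⟨j0, hj0, hj0max⟩ := Finset.exists_max_image (Finset.Icc 1 (p - 1))
    (fun j => A.valuation (xc (j • R))) ⟨1, by simp; omega⟩
  rw [Finset.mem_Icc] at hj0
  have hj0nd : ¬ p ∣ j0 := by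
    intro h
    have := Nat.le_of_dvd (by omega) h
    omega
  have hR' : j0 • R ≠ 0 := fun h => hj0nd ((hmul _).1 h)
  have hpR' : p • (j0 • R) = 0 := by
    rw [smul_comm, hpR, smul_zero]
  have hc := core A p q hp hp2 hq hpq hqA hb₂ hb₄ hb₆ hb₈ hR' hpR' (by
    intro j hj
    rw [smul_smul] at hj ⊢
    rw [← mod_addOrderOf_nsmul, hord] at hj ⊢
    apply hj0max
    rw [Finset.mem_Icc]
    have h1 : (j * j0) % p < p := Nat.mod_lt _ hp.pos
    have h2 : (j * j0) % p ≠ 0 := by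
      intro h; rw [h, zero_smul] at hj; exact hj rfl
    omega)
  have h1 := hj0max 1 (by rw [Finset.mem_Icc]; omega)
  simp only [one_smul] at h1
  exact h1.trans hc

omit [DecidableEq K] in
/-- integral `x` implies integral `y`. -/
theorem y_integral (h₁ : W.a₁ ∈ A) (h₂ : W.a₂ ∈ A) (h₃ : W.a₃ ∈ A) (h₄ : W.a₄ ∈ A) (h₆ : W.a₆ ∈ A)
    {R : W.Point} (hR : R ≠ 0) (hx : A.valuation (xc R) ≤ 1) : A.valuation (yc R) ≤ 1 := by
  by_contra hcon
  rw [not_le] at hcon
  have hxA : xc R ∈ A := (A.valuation_le_one_iff _).1 hx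
  have e := equation_xc_yc hR
  have hr : A.valuation ((xc R) ^ 3 + W.a₂ * (xc R) ^ 2 + W.a₄ * xc R + W.a₆) ≤ 1 := by
    rw [A.valuation_le_one_iff]
    exact A.add_mem _ _ (A.add_mem _ _ (A.add_mem _ _ (pow_mem hxA 3)
      (A.mul_mem _ _ h₂ (pow_mem hxA 2))) (A.mul_mem _ _ h₄ hxA)) h₆
  have hl : A.valuation (W.a₁ * xc R + W.a₃) ≤ 1 := by
    rw [A.valuation_le_one_iff]
    exact A.add_mem _ _ (A.mul_mem _ _ h₁ hxA) h₃
  have h5 : A.valuation (yc R + (W.a₁ * xc R + W.a₃)) = A.valuation (yc R) :=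
    Valuation.map_add_eq_of_lt_left _ (lt_of_le_of_lt hl hcon)
  have h6 : (yc R) ^ 2 + W.a₁ * xc R * yc R + W.a₃ * yc R
      = yc R * (yc R + (W.a₁ * xc R + W.a₃)) := by ring
  rw [← e, h6, map_mul, h5] at hr
  have : 1 < A.valuation (yc R) * A.valuation (yc R) := one_lt_mul'' hcon hcon
  exact absurd hr (not_le.2 this)

end Fermat.Agent.S05
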