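import Fermat.Agent.S05.Main

set_option autoImplicit false

namespace Fermat.Agent.S05

open WeierstrassCurve WeierstrassCurve.Affine WeierstrassCurve.Affine.Point

variable {K : Type*} [Field K] [DecidableEq K] {A : ValuationSubring K}
  {W : WeierstrassCurve.Affine K} {p q : ℕ} {σ : K →+* K} {s : W.Point →+ W.Point}

/-- The abstract Frey-curve statement. -/
theorem frey_fixed (D : PrimeData A p q) (G : GalData A W σ s) (hq2 : q ≠ 2)
    (a b c : ℤ) (ha0 : a ≠ 0) (hb0 : b ≠ 0) (hc0 : c ≠ 0) (hchar : ∀ n : ℤ, n ≠ 0 → (n : K) ≠ 0)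
    (habc : a ^ p + b ^ p = c ^ p)
    (hab : ¬ ((q : ℤ) ∣ a ∧ (q : ℤ) ∣ b))
    (ha₁ : W.a₁ = 1) (ha₂ : W.a₂ = ((b : K) ^ p - 1 - (a : K) ^ p) / 4) (ha₃ : W.a₃ = 0)
    (ha₄ : W.a₄ = -((a : K) ^ p) * ((b : K) ^ p) / 16) (ha₆ : W.a₆ = 0)
    {P : W.Point} (hpP : p • P = 0) : s P = P := by
  have hq := D.hq
  have hqA := D.hqA
  have hp0 : p ≠ 0 := D.hp.ne_zero
  have hqi : Prime (q : ℤ) := Nat.prime_iff_prime_int.1 hq
  have hpow2 : ∀ k : ℕ, A.valuation ((2 : K) ^ k) = 1 := by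
    intro k
    have := valuation_natCast_eq_one A hq hqA (n := 2) (by
      intro h; exact hq2 ((Nat.prime_dvd_prime_iff_eq hq Nat.prime_two).1 h))
    rw [map_pow]
    simp only [Nat.cast_ofNat] at this
    rw [this, one_pow]
  have h2 : A.valuation (2 : K) = 1 := by simpa using hpow2 1
  have h4 : A.valuation (4 : K) = 1 := by
    have := hpow2 2; norm_num at this; exact this
  have h8 : A.valuation (8 : K) = 1 := by
    have := hpow2 3; norm_num at this; exact this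
  have n8 : (8 : K) ≠ 0 := (A.valuation.ne_zero_iff).1 (by rw [h8]; exact one_ne_zero)
  have h16 : A.valuation (16 : K) = 1 := by
    have := hpow2 4; norm_num at this; exact this
  have h256 : A.valuation (256 : K) = 1 := by
    have := hpow2 8; norm_num at this; exact this
  have n2 : (2 : K) ≠ 0 := (A.valuation.ne_zero_iff).1 (by rw [h2]; exact one_ne_zero)
  have n4 : (4 : K) ≠ 0 := (A.valuation.ne_zero_iff).1 (by rw [h4]; exact one_ne_zero)
  have n16 : (16 : K) ≠ 0 := (A.valuation.ne_zero_iff).1 (by rw [h16]; exact one_ne_zero)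
  have n256 : (256 : K) ≠ 0 := (A.valuation.ne_zero_iff).1 (by rw [h256]; exact one_ne_zero)
  obtain ⟨α, hα⟩ : ∃ α : K, α = (a : K) ^ p := ⟨_, rfl⟩
  obtain ⟨β, hβ⟩ : ∃ β : K, β = (b : K) ^ p := ⟨_, rfl⟩
  have hγ : α + β = (c : K) ^ p := by
    rw [hα, hβ]; exact_mod_cast congrArg (Int.cast : ℤ → K) habc
  rw [← hα, ← hβ] at ha₂ ha₄
  have vα : A.valuation α = A.valuation (a : K) ^ p := by rw [hα, map_pow]
  have vβ : A.valuation β = A.valuation (b : K) ^ p := by rw [hβ, map_pow]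
  have vγ : A.valuation (α + β) = A.valuation (c : K) ^ p := by rw [hγ, map_pow]
  have vα1 : A.valuation α ≤ 1 := by rw [vα]; exact pow_le_one' (valuation_intCast_le_one A a) p
  have vβ1 : A.valuation β ≤ 1 := by rw [vβ]; exact pow_le_one' (valuation_intCast_le_one A b) p
  have σα : σ α = α := by rw [hα]; simp
  have σβ : σ β = β := by rw [hβ]; simp
  -- integrality
  have I : IntData A W := by
    refine ⟨?_, ?_, ?_, ?_, ?_⟩
    · rw [ha₁]; exact A.one_mem
    · rw [ha₂, ← A.valuation_le_one_iff, map_div₀, h4, div_one]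
      exact Valuation.map_sub_le _ (Valuation.map_sub_le _ vβ1 (by simp)) vα1
    · rw [ha₃]; exact A.zero_mem
    · rw [ha₄, ← A.valuation_le_one_iff, map_div₀, h16, div_one, map_mul, Valuation.map_neg]
      exact mul_le_one' vα1 vβ1
    · rw [ha₆]; exact A.zero_mem
  have hb₂ : W.b₂ = β - α := by
    simp only [WeierstrassCurve.b₂, ha₁, ha₂]; field_simp; ring
  have hb₄ : W.b₄ = -α * β / 8 := by
    simp only [WeierstrassCurve.b₄, ha₁, ha₃, ha₄]; field_simp; ring
  have hb₆ : W.b₆ = 0 := by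
    simp only [WeierstrassCurve.b₆, ha₃, ha₆]; ring
  have hσ₁ : σ W.a₁ = W.a₁ := by rw [ha₁, map_one]
  have hσ₃ : σ W.a₃ = W.a₃ := by rw [ha₃, _root_.map_zero]
  -- divisibility facts
  have hac : ¬ ((q : ℤ) ∣ a ∧ (q : ℤ) ∣ c) := by
    rintro ⟨h1, h2⟩
    apply hab ⟨h1, ?_⟩
    have h3 : (q : ℤ) ∣ b ^ p := by
      have : b ^ p = c ^ p - a ^ p := by linarith
      rw [this]
      exact dvd_sub (dvd_pow h2 hp0) (dvd_pow h1 hp0)
    exact hqi.dvd_of_dvd_pow h3
  have hbc : ¬ ((q : ℤ) ∣ b ∧ (q : ℤ) ∣ c) := by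
    rintro ⟨h1, h2⟩
    apply hab ⟨?_, h1⟩
    have h3 : (q : ℤ) ∣ a ^ p := by
      have : a ^ p = c ^ p - b ^ p := by linarith
      rw [this]
      exact dvd_sub (dvd_pow h2 hp0) (dvd_pow h1 hp0)
    exact hqi.dvd_of_dvd_pow h3
  have unit_of : ∀ n : ℤ, ¬ (q : ℤ) ∣ n → A.valuation (n : K) ^ p = 1 := by
    intro n hn; rw [valuation_intCast_eq_one A hq hqA hn, one_pow]
  have lt_of : ∀ n : ℤ, (q : ℤ) ∣ n → A.valuation (n : K) ^ p < 1 := by
    intro n hn
    exact pow_lt_one₀ zero_le (valuation_intCast_lt_one A hqA hn) hp0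
  by_cases hqa : (q : ℤ) ∣ a
  · -- node at `x = 0`
    have hqb : ¬ (q : ℤ) ∣ b := fun h => hab ⟨hqa, h⟩
    have H : ShiftData W 0 (-α * β / 16) (β - α) := by
      refine ⟨by rw [hb₆]; ring, by rw [hb₄]; field_simp; ring, by rw [hb₂]; ring, n2⟩
    refine fixed_mult I D G hq2 H hσ₁ hσ₃ (_root_.map_zero σ) (by simp) ?_ (hchar a ha0)
      (map_intCast σ a) ?_ ?_ hpP
    · rw [Valuation.map_sub_eq_of_lt_left, vβ, unit_of b hqb]
      rw [vα, vβ, unit_of b hqb]; exact lt_of a hqa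
    · rw [map_div₀, h16, div_one, map_mul, Valuation.map_neg, vα, vβ, unit_of b hqb, mul_one]
    · rw [map_div₀, h16, div_one, map_mul, Valuation.map_neg, vα, vβ, unit_of b hqb, mul_one]
      exact lt_of a hqa
  by_cases hqb : (q : ℤ) ∣ b
  · have H : ShiftData W 0 (-α * β / 16) (β - α) := by
      refine ⟨by rw [hb₆]; ring, by rw [hb₄]; field_simp; ring, by rw [hb₂]; ring, n2⟩
    refine fixed_mult I D G hq2 H hσ₁ hσ₃ (_root_.map_zero σ) (by simp) ?_ (hchar b hb0)
      (map_intCast σ b) ?_ ?_ hpP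
    · rw [Valuation.map_sub_eq_of_lt_right, vα, unit_of a hqa]
      rw [vα, vβ, unit_of a hqa]; exact lt_of b hqb
    · rw [map_div₀, h16, div_one, map_mul, Valuation.map_neg, vα, vβ, unit_of a hqa, one_mul]
    · rw [map_div₀, h16, div_one, map_mul, Valuation.map_neg, vα, vβ, unit_of a hqa, one_mul]
      exact lt_of b hqb
  by_cases hqc : (q : ℤ) ∣ c
  · have H : ShiftData W (α / 4) (α * (α + β) / 16) (α + (α + β)) := by
      refine ⟨by rw [hb₆, hb₂, hb₄]; field_simp; ring, by rw [hb₄, hb₂]; field_simp; ring,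
        by rw [hb₂]; field_simp; ring, n2⟩
    refine fixed_mult I D G hq2 H hσ₁ hσ₃ (by rw [map_div₀, σα, map_ofNat]) ?_ ?_ (hchar c hc0)
      (map_intCast σ c) ?_ ?_ hpP
    · rw [map_div₀, h4, div_one]; exact vα1
    · rw [Valuation.map_add_eq_of_lt_left, vα, unit_of a hqa]
      rw [vα, vγ, unit_of a hqa]; exact lt_of c hqc
    · rw [map_div₀, h16, div_one, map_mul, vα, vγ, unit_of a hqa, one_mul]
    · rw [map_div₀, h16, div_one, map_mul, vα, vγ, unit_of a hqa, one_mul]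
      exact lt_of c hqc
  · -- good reduction
    refine fixed_good I D G ?_ hpP
    have hΔ : W.Δ = (α * β * (α + β)) ^ 2 / 256 := by
      simp only [WeierstrassCurve.Δ, WeierstrassCurve.b₈, hb₂, hb₄, hb₆, ha₁, ha₂, ha₃, ha₄, ha₆]
      field_simp
      ring
    rw [hΔ, map_div₀, h256, div_one, map_pow, map_mul, map_mul, vα, vβ, vγ, unit_of a hqa,
      unit_of b hqb, unit_of c hqc]
    simp

end Fermat.Agent.S05
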