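import Fermat.Statements.S05

set_option autoImplicit false

namespace Fermat.Agent.S05

open ValuationSubring

/-- Elements of the inertia subgroup act trivially modulo the maximal ideal. -/
theorem inertia_spec {K L : Type*} [Field K] [Field L] [Algebra K L] (A : ValuationSubring L)
    (σ : L ≃ₐ[K] L) (hσ : σ ∈ A.inertiaSubgroupIn K) (x : L) (hx : A.valuation x ≤ 1) :
    A.valuation (σ x - x) < 1 := by
  obtain ⟨τ, hτ, rfl⟩ := Subgroup.mem_map.1 hσ
  have hxA : x ∈ A := (A.valuation_le_one_iff x).1 hx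
  have h1 : MulSemiringAction.toRingAut (A.decompositionSubgroup K) (IsLocalRing.ResidueField A) τ
      = 1 := hτ
  have h2 : τ • (IsLocalRing.residue A ⟨x, hxA⟩) = IsLocalRing.residue A ⟨x, hxA⟩ := by
    have := congrArg (fun f => f (IsLocalRing.residue A ⟨x, hxA⟩)) h1
    simpa using this
  have h3 : IsLocalRing.residue A (τ • (⟨x, hxA⟩ : A)) = IsLocalRing.residue A ⟨x, hxA⟩ := by
    rw [← h2]; rfl
  have h4 : (τ • (⟨x, hxA⟩ : A)) - ⟨x, hxA⟩ ∈ IsLocalRing.maximalIdeal A := by
    rw [← IsLocalRing.residue_eq_zero_iff, map_sub, h3, sub_self]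
  have h5 := (A.valuation_lt_one_iff _).1 h4
  exact h5

end Fermat.Agent.S05
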