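import Fermat.Agent.S05.Congr
import Fermat.Agent.S05.Integral
import Fermat.Agent.S05.Inertia

set_option autoImplicit false

namespace Fermat.Agent.S05

open WeierstrassCurve WeierstrassCurve.Affine WeierstrassCurve.Affine.Point

section G1

variable {K : Type*} [Field K] {Γ₀ : Type*} [LinearOrderedCommGroupWithZero Γ₀]
  (v : Valuation K Γ₀) {W : WeierstrassCurve.Affine K}

/-- The discriminant lies in the ideal generated by the two partial derivatives at a point of the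
curve. -/
lemma Δ_eq_of_equation {x y : K} (h : W.Equation x y) :
    W.Δ = (2 * y + W.a₁ * x + W.a₃) *
        ((W.a₁ ^ 2 + 4 * (W.a₂ + 3 * x)) ^ 2 *
            (W.a₁ * (3 * x ^ 2 + 2 * W.a₂ * x + W.a₄ - W.a₁ * y)
              - (W.a₂ + 3 * x) * (2 * y + W.a₁ * x + W.a₃))
          - 8 * W.a₁ * (2 * (3 * x ^ 2 + 2 * W.a₂ * x + W.a₄ - W.a₁ * y)
              + W.a₁ * (2 * y + W.a₁ * x + W.a₃)) ^ 2
          - 27 * (2 * y + W.a₁ * x + W.a₃) ^ 3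
          + 9 * (W.a₁ ^ 2 + 4 * (W.a₂ + 3 * x)) *
            (2 * (3 * x ^ 2 + 2 * W.a₂ * x + W.a₄ - W.a₁ * y)
              + W.a₁ * (2 * y + W.a₁ * x + W.a₃)) * (2 * y + W.a₁ * x + W.a₃))
      + (3 * x ^ 2 + 2 * W.a₂ * x + W.a₄ - W.a₁ * y) *
        ((W.a₁ ^ 2 + 4 * (W.a₂ + 3 * x)) ^ 2 * (3 * x ^ 2 + 2 * W.a₂ * x + W.a₄ - W.a₁ * y)
          - 16 * (2 * (3 * x ^ 2 + 2 * W.a₂ * x + W.a₄ - W.a₁ * y)
              + W.a₁ * (2 * y + W.a₁ * x + W.a₃)) ^ 2) := by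
  have e := (equation_iff _ _).1 h
  obtain ⟨a6, ha6⟩ : ∃ a6, a6 = W.a₆ + W.a₄ * x + W.a₂ * x ^ 2 + x ^ 3 - W.a₃ * y - y ^ 2
      - W.a₁ * x * y := ⟨_, rfl⟩
  have h0 : a6 = 0 := by rw [ha6]; linear_combination -e
  have h6 : W.a₆ = a6 - (W.a₄ * x + W.a₂ * x ^ 2 + x ^ 3 - W.a₃ * y - y ^ 2 - W.a₁ * x * y) := by
    rw [ha6]; ring
  simp only [Δ, b₂, b₄, b₆, b₈]
  rw [h6, h0]
  ring

/-- Unit discriminant implies nonsingular reduction at every integral point. -/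
theorem hns_of_Δ_unit (h₁ : v W.a₁ ≤ 1) (h₂ : v W.a₂ ≤ 1) (h₃ : v W.a₃ ≤ 1) (h₄ : v W.a₄ ≤ 1)
    {x y : K} (h : W.Equation x y) (hx : v x ≤ 1) (hy : v y ≤ 1) (hΔ : v W.Δ = 1) :
    v (W.a₁ * y - (3 * x ^ 2 + 2 * W.a₂ * x + W.a₄)) = 1 ∨ v (2 * y + W.a₁ * x + W.a₃) = 1 := by
  have m₁ : W.a₁ ∈ v.integer := h₁
  have m₂ : W.a₂ ∈ v.integer := h₂
  have m₃ : W.a₃ ∈ v.integer := h₃
  have m₄ : W.a₄ ∈ v.integer := h₄
  have mx : x ∈ v.integer := hx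
  have my : y ∈ v.integer := hy
  have n2 : (2 : K) ∈ v.integer := ofNat_mem _ 2
  have n3 : (3 : K) ∈ v.integer := ofNat_mem _ 3
  have n4 : (4 : K) ∈ v.integer := ofNat_mem _ 4
  have n8 : (8 : K) ∈ v.integer := ofNat_mem _ 8
  have n9 : (9 : K) ∈ v.integer := ofNat_mem _ 9
  have n16 : (16 : K) ∈ v.integer := ofNat_mem _ 16
  have n27 : (27 : K) ∈ v.integer := ofNat_mem _ 27
  have ms : 2 * y + W.a₁ * x + W.a₃ ∈ v.integer := by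
    apply_rules [Subring.add_mem, Subring.mul_mem]
  have mr : 3 * x ^ 2 + 2 * W.a₂ * x + W.a₄ - W.a₁ * y ∈ v.integer := by
    apply_rules [Subring.add_mem, Subring.mul_mem, Subring.sub_mem, Subring.pow_mem]
  have mb2 : W.a₁ ^ 2 + 4 * (W.a₂ + 3 * x) ∈ v.integer := by
    apply_rules [Subring.add_mem, Subring.mul_mem, Subring.pow_mem]
  have mb4 : 2 * (3 * x ^ 2 + 2 * W.a₂ * x + W.a₄ - W.a₁ * y)
      + W.a₁ * (2 * y + W.a₁ * x + W.a₃) ∈ v.integer := by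
    apply_rules [Subring.add_mem, Subring.mul_mem]
  have ma2 : W.a₂ + 3 * x ∈ v.integer := by
    apply_rules [Subring.add_mem, Subring.mul_mem]
  by_contra hcon
  push Not at hcon
  obtain ⟨hr, hs⟩ := hcon
  have hs' : v (2 * y + W.a₁ * x + W.a₃) < 1 := lt_of_le_of_ne ms hs
  have hr' : v (3 * x ^ 2 + 2 * W.a₂ * x + W.a₄ - W.a₁ * y) < 1 := by
    have e : 3 * x ^ 2 + 2 * W.a₂ * x + W.a₄ - W.a₁ * y
        = -(W.a₁ * y - (3 * x ^ 2 + 2 * W.a₂ * x + W.a₄)) := by ring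
    refine lt_of_le_of_ne mr ?_
    rw [e, Valuation.map_neg]
    exact hr
  have hlt : v W.Δ < 1 := by
    rw [Δ_eq_of_equation h]
    refine val_add_lt_one v (val_mul_lt_one_left v hs' ?_) (val_mul_lt_one_left v hr' ?_)
    · change _ ∈ v.integer
      apply_rules [Subring.add_mem, Subring.mul_mem, Subring.sub_mem, Subring.pow_mem]
    · change _ ∈ v.integer
      apply_rules [Subring.add_mem, Subring.mul_mem, Subring.sub_mem, Subring.pow_mem]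
  rw [hΔ] at hlt
  exact lt_irrefl _ hlt

end G1

section G2

variable {K : Type*} [Field K] [DecidableEq K] (A : ValuationSubring K)
  {W : WeierstrassCurve.Affine K}

omit [DecidableEq K] in
lemma b_mem (h₁ : W.a₁ ∈ A) (h₂ : W.a₂ ∈ A) (h₃ : W.a₃ ∈ A) (h₄ : W.a₄ ∈ A) (h₆ : W.a₆ ∈ A) :
    W.b₂ ∈ A ∧ W.b₄ ∈ A ∧ W.b₆ ∈ A ∧ W.b₈ ∈ A := by
  have n2 : (2 : K) ∈ A := ofNat_mem _ 2
  have n4 : (4 : K) ∈ A := ofNat_mem _ 4
  simp only [b₂, b₄, b₆, b₈]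
  refine ⟨?_, ?_, ?_, ?_⟩ <;>
    apply_rules [ValuationSubring.add_mem, ValuationSubring.mul_mem, sub_mem, pow_mem]

/-- Two nonzero `p`-torsion points which are congruent modulo the maximal ideal, and reduce to a
nonsingular point, are equal. -/
theorem eq_of_congr_of_hns (p q : ℕ) (hp : p.Prime) (hp2 : p ≠ 2) (hq : q.Prime) (hpq : p ≠ q)
    (hqA : A.valuation (q : K) < 1)
    (h₁ : W.a₁ ∈ A) (h₂ : W.a₂ ∈ A) (h₃ : W.a₃ ∈ A) (h₄ : W.a₄ ∈ A) (h₆ : W.a₆ ∈ A)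
    {P Q : W.Point} (hP : P ≠ 0) (hQ : Q ≠ 0) (hpP : p • P = 0) (hpQ : p • Q = 0)
    (hx : A.valuation (xc P - xc Q) < 1) (hy : A.valuation (yc P - yc Q) < 1)
    (hns : A.valuation (W.a₁ * yc Q - (3 * xc Q ^ 2 + 2 * W.a₂ * xc Q + W.a₄)) = 1 ∨
      A.valuation (2 * yc Q + W.a₁ * xc Q + W.a₃) = 1) :
    P = Q := by
  obtain ⟨hb₂, hb₄, hb₆, hb₈⟩ := b_mem A h₁ h₂ h₃ h₄ h₆
  have hxP := torsion_x_integral A p q hp hp2 hq hpq hqA hb₂ hb₄ hb₆ hb₈ hP hpP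
  have hxQ := torsion_x_integral A p q hp hp2 hq hpq hqA hb₂ hb₄ hb₆ hb₈ hQ hpQ
  have hyP := y_integral A h₁ h₂ h₃ h₄ h₆ hP hxP
  have hyQ := y_integral A h₁ h₂ h₃ h₄ h₆ hQ hxQ
  have le1 : ∀ {z : K}, z ∈ A → A.valuation z ≤ 1 := fun hz => (A.valuation_le_one_iff _).2 hz
  rcases sub_eq_zero_or_nonintegral A.valuation (le1 h₁) (le1 h₂) (le1 h₃) (le1 h₄) hP hQ
    hxP hyP hxQ hyQ hx hy hns with h | h
  · exact sub_eq_zero.1 h
  · exfalso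
    have hne : P - Q ≠ 0 := by
      intro h0
      rw [h0] at h
      simp at h
    have hpPQ : p • (P - Q) = 0 := by rw [smul_sub, hpP, hpQ, sub_zero]
    have := torsion_x_integral A p q hp hp2 hq hpq hqA hb₂ hb₄ hb₆ hb₈ hne hpPQ
    exact absurd this (not_le.2 h)

/-- Version of `hns_of_Δ_unit` for points and valuation subrings. -/
theorem hns_of_unit_disc
    (h₁ : W.a₁ ∈ A) (h₂ : W.a₂ ∈ A) (h₃ : W.a₃ ∈ A) (h₄ : W.a₄ ∈ A)
    (hΔ : A.valuation W.Δ = 1)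
    {P : W.Point} (hP : P ≠ 0) (hx : A.valuation (xc P) ≤ 1) (hy : A.valuation (yc P) ≤ 1) :
    A.valuation (W.a₁ * yc P - (3 * xc P ^ 2 + 2 * W.a₂ * xc P + W.a₄)) = 1 ∨
      A.valuation (2 * yc P + W.a₁ * xc P + W.a₃) = 1 :=
  have le1 : ∀ {z : K}, z ∈ A → A.valuation z ≤ 1 := fun hz => (A.valuation_le_one_iff _).2 hz
  hns_of_Δ_unit A.valuation (le1 h₁) (le1 h₂) (le1 h₃) (le1 h₄) (nonsingular_xc_yc hP).1 hx hy hΔ

end G2

end Fermat.Agent.S05
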