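import Fermat.Agent.S05.Ord
import Fermat.Agent.S05.Comb

set_option autoImplicit false

namespace Fermat.Agent.S05

/-- Valuation-theoretic heart of the multiplicative case (translate to `ord`, apply `comb_main`). -/
theorem mult_val {K : Type*} [Field K] {Γ₀ : Type*} [LinearOrderedCommGroupWithZero Γ₀]
    (v : Valuation K Γ₀) (p : ℕ) (hp : p.Prime) (hp2 : p ≠ 2) (X : ℤ → K) (c b' : K)
    (hc0 : c ≠ 0) (hb' : v b' = 1) (h2 : v (2 : K) = 1)
    (hX0 : ∀ j : ℤ, ¬ (p : ℤ) ∣ j → X j ≠ 0)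
    (hX1 : ∀ j : ℤ, ¬ (p : ℤ) ∣ j → v (X j) < 1)
    (hneg : ∀ i j : ℤ, (p : ℤ) ∣ i + j → X i = X j)
    (hmax : ∀ j : ℤ, ¬ (p : ℤ) ∣ j → v (X j) ≤ v (X 1))
    (hne : ∀ i j : ℤ, ¬ (p : ℤ) ∣ i → ¬ (p : ℤ) ∣ j → ¬ (p : ℤ) ∣ i + j → ¬ (p : ℤ) ∣ i - j →
      X i ≠ X j)
    (hR : ∀ i j : ℤ, ¬ (p : ℤ) ∣ i → ¬ (p : ℤ) ∣ j → ¬ (p : ℤ) ∣ i + j → ¬ (p : ℤ) ∣ i - j →
      X (i + j) * X (i - j) * (X i - X j) ^ 2 = (X i * X j - c) ^ 2)
    (hD0 : ∀ j : ℤ, ¬ (p : ℤ) ∣ j → 4 * X j ^ 2 + b' * X j + 4 * c ≠ 0)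
    (hD : ∀ j : ℤ, ¬ (p : ℤ) ∣ j →
      X (2 * j) * (X j * (4 * X j ^ 2 + b' * X j + 4 * c)) = (X j ^ 2 - c) ^ 2) :
    v (X 1) ^ p = v c ^ 2 := by
  have hpi : Prime (p : ℤ) := Nat.prime_iff_prime_int.1 hp
  have hp3 : 3 ≤ p := by
    have := hp.two_le; omega
  have h1nd : ¬ (p : ℤ) ∣ 1 := by
    intro h
    have := Int.le_of_dvd (by norm_num) h
    omega
  have h2nd : ∀ j : ℤ, ¬ (p : ℤ) ∣ j → ¬ (p : ℤ) ∣ 2 * j := by
    intro j hj h
    rcases hpi.dvd_or_dvd h with h | h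
    · have := Int.le_of_dvd (by norm_num) h
      omega
    · exact hj h
  have n2 : (2 : K) ≠ 0 := (v.ne_zero_iff).1 (by rw [h2]; exact one_ne_zero)
  have h4 : v (4 : K) = 1 := by
    have : (4 : K) = 2 * 2 := by norm_num
    rw [this, map_mul, h2, one_mul]
  have n4 : (4 : K) ≠ 0 := (v.ne_zero_iff).1 (by rw [h4]; exact one_ne_zero)
  have nb : b' ≠ 0 := (v.ne_zero_iff).1 (by rw [hb']; exact one_ne_zero)
  have o4 : ord v (4 : K) = 0 := (ord_eq_zero_iff n4).2 h4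
  have ob : ord v b' = 0 := (ord_eq_zero_iff nb).2 hb'
  have key := comb_main p hp hp2 (ord v c) (fun j => ord v (X j))
    (fun j hj => (ord_pos_iff (hX0 j hj)).2 (hX1 j hj))
    (fun i j hij => by rw [hneg i j hij])
    (fun j hj => (ord_le_iff (hX0 1 h1nd) (hX0 j hj)).2 (hmax j hj))
    (by
      intro i j hi hj hij hij'
      have e := hR i j hi hj hij hij'
      have d0 : X i - X j ≠ 0 := sub_ne_zero.2 (hne i j hi hj hij hij')
      have l0 : X (i + j) * X (i - j) * (X i - X j) ^ 2 ≠ 0 :=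
        mul_ne_zero (mul_ne_zero (hX0 _ hij) (hX0 _ hij')) (pow_ne_zero 2 d0)
      have r0 : X i * X j - c ≠ 0 := by
        intro h; rw [e, h] at l0; exact l0 (by simp)
      have m0 : X i * X j ≠ 0 := mul_ne_zero (hX0 i hi) (hX0 j hj)
      refine ⟨ord v (X i - X j), ord v (X i * X j - c), ?_, ?_, ?_, ?_, ?_⟩
      · have := congrArg (ord v) e
        rwa [ord_mul (mul_ne_zero (hX0 _ hij) (hX0 _ hij')) (pow_ne_zero 2 d0),
          ord_mul (hX0 _ hij) (hX0 _ hij'), ord_pow d0, ord_pow r0] at this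
      · exact min_le_ord_sub (hX0 i hi) (hX0 j hj) d0
      · intro h; exact (ord_sub_of_ne (hX0 i hi) (hX0 j hj) h).2
      · rw [← ord_mul (hX0 i hi) (hX0 j hj)]
        exact min_le_ord_sub m0 hc0 r0
      · rw [← ord_mul (hX0 i hi) (hX0 j hj)]
        intro h; exact (ord_sub_of_ne m0 hc0 h).2)
    (by
      intro j hj
      have e := hD j hj
      have x0 := hX0 j hj
      have g0 := hD0 j hj
      have l0 : X (2 * j) * (X j * (4 * X j ^ 2 + b' * X j + 4 * c)) ≠ 0 :=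
        mul_ne_zero (hX0 _ (h2nd j hj)) (mul_ne_zero x0 g0)
      have r0 : X j ^ 2 - c ≠ 0 := by
        intro h; rw [e, h] at l0; exact l0 (by simp)
      have s0 : X j ^ 2 ≠ 0 := pow_ne_zero 2 x0
      have hpos : 0 < ord v (X j) := (ord_pos_iff x0).2 (hX1 j hj)
      -- `ord (4 X² + b' X) = ord X`
      have t1 : ord v (4 * X j ^ 2) = 2 • ord v (X j) := by
        rw [ord_mul n4 s0, o4, zero_add, ord_pow x0]
      have t2 : ord v (b' * X j) = ord v (X j) := by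
        rw [ord_mul nb x0, ob, zero_add]
      have t3 : ord v (4 * c) = ord v c := by
        rw [ord_mul n4 hc0, o4, zero_add]
      have t12ne : ord v (4 * X j ^ 2) ≠ ord v (b' * X j) := by
        rw [t1, t2]; intro h; grind
      obtain ⟨u0, u1⟩ := ord_add_of_ne (mul_ne_zero n4 s0) (mul_ne_zero nb x0) t12ne
      have u2 : ord v (4 * X j ^ 2 + b' * X j) = ord v (X j) := by
        rw [u1, t1, t2]; grind
      refine ⟨ord v (X j ^ 2 - c), ord v (4 * X j ^ 2 + b' * X j + 4 * c), ?_, ?_, ?_, ?_, ?_⟩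
      · have := congrArg (ord v) e
        rw [ord_mul (hX0 _ (h2nd j hj)) (mul_ne_zero x0 g0), ord_mul x0 g0, ord_pow r0] at this
        rw [← this, add_assoc]
      · rw [← ord_pow x0]
        exact min_le_ord_sub s0 hc0 r0
      · rw [← ord_pow x0]
        intro h; exact (ord_sub_of_ne s0 hc0 h).2
      · rw [← u2, ← t3]
        exact min_le_ord_add u0 (mul_ne_zero n4 hc0) g0
      · rw [← u2, ← t3]
        intro h; exact (ord_add_of_ne u0 (mul_ne_zero n4 hc0) h).2)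
  have x1 := hX0 1 h1nd
  have : ord v (X 1 ^ p) = ord v (c ^ 2) := by
    rw [ord_pow x1, ord_pow hc0]; exact key
  rw [ord_eq_iff (pow_ne_zero p x1) (pow_ne_zero 2 hc0), map_pow, map_pow] at this
  exact this

end Fermat.Agent.S05
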