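import Fermat.Agent.S05.Shift
import Fermat.Agent.S05.Congr

set_option autoImplicit false

namespace Fermat.Agent.S05

open WeierstrassCurve WeierstrassCurve.Affine WeierstrassCurve.Affine.Point

variable {K : Type*} [Field K] {Γ₀ : Type*} [LinearOrderedCommGroupWithZero Γ₀]
  (v : Valuation K Γ₀) {W : WeierstrassCurve.Affine K} {x0 c b' : K}

/-- (M1) An integral point which does not reduce to the node `x ≡ x0` has nonsingular reduction. -/
theorem nonsingular_of_not_node (H : ShiftData W x0 c b')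
    (h₁ : v W.a₁ ≤ 1) (h₂ : v W.a₂ ≤ 1) (h₃ : v W.a₃ ≤ 1) (h₄ : v W.a₄ ≤ 1)
    (h2 : v (2 : K) = 1) (hb' : v b' = 1) (hcv : v c < 1)
    {P : W.Point} (hP : P ≠ 0) (hx : v (xc P) ≤ 1) (hy : v (yc P) ≤ 1)
    (hX : v (xc P - x0) = 1) :
    v (W.a₁ * yc P - (3 * xc P ^ 2 + 2 * W.a₂ * xc P + W.a₄)) = 1 ∨
      v (2 * yc P + W.a₁ * xc P + W.a₃) = 1 := by
  set x := xc P with hxdef
  set y := yc P with hydef
  set X := x - x0 with hXdef
  have n2 : v (2 : K) ≤ 1 := h2.le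
  have n3 : v (3 : K) ≤ 1 := by simpa using val_natCast_le_one v 3
  have n4 : v (4 : K) ≤ 1 := by simpa using val_natCast_le_one v 4
  have n8 : v (8 : K) ≤ 1 := by simpa using val_natCast_le_one v 8
  have mη : v (2 * y + W.a₁ * x + W.a₃) ≤ 1 :=
    val_add_le_one v (val_add_le_one v (val_mul_le_one v n2 hy) (val_mul_le_one v h₁ hx)) h₃
  have mω : v (W.a₁ * y - (3 * x ^ 2 + 2 * W.a₂ * x + W.a₄)) ≤ 1 := by
    refine val_sub_le_one v (val_mul_le_one v h₁ hy) (val_add_le_one v (val_add_le_one v ?_ ?_) h₄)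
    · rw [pow_two]; exact val_mul_le_one v n3 (val_mul_le_one v hx hx)
    · exact val_mul_le_one v (val_mul_le_one v n2 h₂) hx
  by_contra hcon
  push Not at hcon
  obtain ⟨hω, hη⟩ := hcon
  have hω' := lt_of_le_of_ne mω hω
  have hη' := lt_of_le_of_ne mη hη
  -- derivative
  have e1 : 12 * X ^ 2 + 2 * b' * X + 4 * c
      = 2 * W.a₁ * (2 * y + W.a₁ * x + W.a₃)
        - 4 * (W.a₁ * y - (3 * x ^ 2 + 2 * W.a₂ * x + W.a₄)) := by
    rw [hXdef, ← H.dpsi x]
    simp only [b₂, b₄]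
    ring
  have s1 : v (12 * X ^ 2 + 2 * b' * X + 4 * c) < 1 := by
    rw [e1]
    exact val_sub_lt_one v (val_mul_lt_one_right v (val_mul_le_one v n2 h₁) hη')
      (val_mul_lt_one_right v n4 hω')
  -- the function itself
  have e2 := H.eta_sq hP
  rw [← hxdef, ← hydef, ← hXdef] at e2
  have s2 : v (4 * X ^ 2 + b' * X + 4 * c) < 1 := by
    have h3 : v ((2 * y + W.a₁ * x + W.a₃) ^ 2) < 1 := by
      rw [pow_two]; exact val_mul_lt_one_left v hη' mη
    rw [e2, map_mul, hX, one_mul] at h3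
    exact h3
  have e3 : b' * X = 3 * (4 * X ^ 2 + b' * X + 4 * c) - (12 * X ^ 2 + 2 * b' * X + 4 * c)
      - 8 * c := by ring
  have s3 : v (b' * X) < 1 := by
    rw [e3]
    exact val_sub_lt_one v (val_sub_lt_one v (val_mul_lt_one_right v n3 s2) s1)
      (val_mul_lt_one_right v n8 hcv)
  rw [map_mul, hb', hX, one_mul] at s3
  exact lt_irrefl _ s3

end Fermat.Agent.S05
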