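import Fermat.Agent.S05.Shift
import Fermat.Agent.S05.Congr

set_option autoImplicit false

namespace Fermat.Agent.S05

open WeierstrassCurve WeierstrassCurve.Affine WeierstrassCurve.Affine.Point

variable {K : Type*} [Field K] {Γ₀ : Type*} [LinearOrderedCommGroupWithZero Γ₀]
  (v : Valuation K Γ₀) {W : WeierstrassCurve.Affine K} {x0 c b' : K}

variable [DecidableEq K]

omit [LinearOrderedCommGroupWithZero Γ₀] in
lemma xc_sub_of_xc_ne {Q P : W.Point} (hQ : Q ≠ 0) (hP : P ≠ 0) (hx : xc Q ≠ xc P) :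
    xc (Q - P) = W.addX (xc Q) (xc P) (W.slope (xc Q) (xc P) (yc Q) (W.negY (xc P) (yc P))) := by
  cases Q with
  | zero => exact absurd rfl hQ
  | some x1 y1 n1 =>
  cases P with
  | zero => exact absurd rfl hP
  | some x2 y2 n2 =>
  simp only [xc_some, yc_some] at hx ⊢
  rw [sub_eq_add_neg, neg_some, add_of_X_ne hx]
  rfl

/-- (M2) slope argument: if `v (x(P) - x0) = v e` with `e` fixed by `σ`, then `σ` fixes `P`. -/
theorem fixed_of_val_eq (H : ShiftData W x0 c b') (σ : K →+* K) (s : W.Point →+ W.Point)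
    (hs : ∀ P : W.Point, P ≠ 0 → s P ≠ 0 ∧ xc (s P) = σ (xc P) ∧ yc (s P) = σ (yc P))
    (hσ : ∀ x, v x ≤ 1 → v (σ x - x) < 1)
    (h₁ : v W.a₁ ≤ 1) (h₂ : v W.a₂ ≤ 1) (hσ₁ : σ W.a₁ = W.a₁) (hσ₃ : σ W.a₃ = W.a₃)
    (hσx0 : σ x0 = x0) (hx0 : v x0 ≤ 1) (h2 : v (2 : K) = 1) (hb' : v b' = 1)
    {e : K} (he : e ≠ 0) (hσe : σ e = e)
    {P : W.Point} (hP : P ≠ 0)
    (hXe : v (xc P - x0) = v e) (hXlt : v (xc P - x0) < 1) (hcX : v c < v (xc P - x0))
    (hint : s P - P = 0 ∨ v (xc (s P - P)) ≤ 1) :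
    s P = P := by
  obtain ⟨hsP, hx1, hy1⟩ := hs P hP
  obtain ⟨x2, hx2⟩ : ∃ x2, x2 = xc P := ⟨_, rfl⟩
  obtain ⟨y2, hy2⟩ : ∃ y2, y2 = yc P := ⟨_, rfl⟩
  obtain ⟨x1, hx1'⟩ : ∃ x1, x1 = xc (s P) := ⟨_, rfl⟩
  obtain ⟨y1, hy1'⟩ : ∃ y1, y1 = yc (s P) := ⟨_, rfl⟩
  obtain ⟨X2, hX2⟩ : ∃ X2, X2 = x2 - x0 := ⟨_, rfl⟩
  obtain ⟨X1, hX1⟩ : ∃ X1, X1 = x1 - x0 := ⟨_, rfl⟩
  have hve : v e ≠ 0 := (v.ne_zero_iff).2 he
  have hvX2 : v X2 = v e := by rw [hX2, hx2]; exact hXe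
  have hX2lt : v X2 < 1 := by rw [hX2, hx2]; exact hXlt
  have hcX2 : v c < v X2 := by rw [hX2, hx2]; exact hcX
  have hX2ne : X2 ≠ 0 := (v.ne_zero_iff).1 (hvX2 ▸ hve)
  have hvX2pos : 0 < v X2 := zero_lt_iff.2 (hvX2 ▸ hve)
  have hσX : σ X2 = X1 := by
    rw [hX2, hX1, map_sub, hσx0, hx2, hx1', hx1]
  -- `v (X1 - X2) < v X2`
  have hdiff : v (X1 - X2) < v X2 := by
    have hu : v (X2 / e) ≤ 1 := by
      rw [map_div₀, hvX2, div_self hve]
    have h := hσ _ hu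
    rw [map_div₀, hσX, hσe, ← sub_div, map_div₀, div_lt_one₀ (zero_lt_iff.2 hve)] at h
    rwa [hvX2]
  have hvX1 : v X1 = v X2 := by
    have : X1 = (X1 - X2) + X2 := by ring
    rw [this]
    exact v.map_add_eq_of_lt_right hdiff
  have hX1ne : X1 ≠ 0 := (v.ne_zero_iff).1 (hvX1 ▸ hvX2pos.ne')
  obtain ⟨η2, hη2⟩ : ∃ η2, η2 = 2 * y2 + W.a₁ * x2 + W.a₃ := ⟨_, rfl⟩
  obtain ⟨η1, hη1⟩ : ∃ η1, η1 = 2 * y1 + W.a₁ * x1 + W.a₃ := ⟨_, rfl⟩
  have hση : σ η2 = η1 := by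
    rw [hη2, hη1, map_add, map_add, map_mul, map_mul, hσ₁, hσ₃, map_ofNat, hx2, hy2, hx1', hy1',
      hx1, hy1]
  have hsq : η2 ^ 2 = X2 * (4 * X2 ^ 2 + b' * X2 + 4 * c) := by
    rw [hη2, hX2, hx2, hy2]; exact H.eta_sq hP
  have h4 : v (4 : K) = 1 := by
    have : (4 : K) = 2 * 2 := by norm_num
    rw [this, map_mul, h2, one_mul]
  obtain ⟨w, hw⟩ : ∃ w, w = η2 / X2 := ⟨_, rfl⟩
  have hwsq : w ^ 2 = b' + (4 * X2 + 4 * c / X2) := by
    rw [hw, div_pow, hsq]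
    field_simp
    ring
  have hvw : v w = 1 := by
    have h1 : v (4 * X2 + 4 * c / X2) < 1 := by
      apply v.map_add_lt
      · rw [map_mul, h4, one_mul]; exact hX2lt
      · rw [map_div₀, map_mul, h4, one_mul, div_lt_one₀ hvX2pos]; exact hcX2
    have h3 : v (w ^ 2) = 1 := by
      rw [hwsq, ← hb']
      exact v.map_add_eq_of_lt_left (by rw [hb']; exact h1)
    rw [map_pow] at h3
    exact (pow_eq_one_iff_of_nonneg zero_le (by norm_num)).1 h3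
  have hσw : σ w = η1 / X1 := by rw [hw, map_div₀, hση, hσX]
  have hdw : v (σ w - w) < 1 := hσ w hvw.le
  have hsum : η1 + η2 = ((σ w - w) * X1 + w * (X1 - X2)) + 2 * w * X2 := by
    rw [hσw, hw]
    field_simp
    ring
  have hvsum : v (η1 + η2) = v X2 := by
    have h3 : v (2 * w * X2) = v X2 := by rw [map_mul, map_mul, h2, hvw, one_mul, one_mul]
    rw [hsum, ← h3]
    apply v.map_add_eq_of_lt_right
    rw [h3]
    apply v.map_add_lt
    · rw [map_mul, hvX1]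
      exact mul_lt_of_lt_one_left hvX2pos hdw
    · rw [map_mul, hvw, one_mul]; exact hdiff
  have hsumne : η1 + η2 ≠ 0 := (v.ne_zero_iff).1 (hvsum ▸ hvX2pos.ne')
  have hvx2 : v x2 ≤ 1 := by
    have : x2 = X2 + x0 := by rw [hX2]; ring
    rw [this]; exact v.map_add_le hX2lt.le hx0
  have hvx1 : v x1 ≤ 1 := by
    have : x1 = X1 + x0 := by rw [hX1]; ring
    rw [this]; exact v.map_add_le (hvX1 ▸ hX2lt.le) hx0
  by_cases hxx : x1 = x2
  · rcases (xc_eq_iff hsP hP).1 (by rw [← hx1', ← hx2, hxx]) with h | h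
    · exact h
    · exfalso
      apply hsumne
      have hy : y1 = W.negY x2 y2 := by rw [hy1', h, yc_neg hP, hx2, hy2]
      rw [hη1, hη2, hy, hxx]
      simp only [negY]
      ring
  · exfalso
    have hne0 : s P - P ≠ 0 := by
      intro h
      apply hxx
      rw [hx1', hx2, sub_eq_zero.1 h]
    have hle : v (xc (s P - P)) ≤ 1 := hint.resolve_left hne0
    have hxx' : xc (s P) ≠ xc P := by rwa [← hx1', ← hx2]
    rw [xc_sub_of_xc_ne hsP hP hxx'] at hle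
    simp only [addX, ← hx1', ← hx2, ← hy1', ← hy2] at hle
    obtain ⟨l, hl⟩ : ∃ l, l = W.slope x1 x2 y1 (W.negY x2 y2) := ⟨_, rfl⟩
    rw [← hl] at hle
    have hd : x1 - x2 ≠ 0 := sub_ne_zero.2 hxx
    have h2ne : (2 : K) ≠ 0 := H.h2
    have hslope : l * (x1 - x2) = (η1 + η2) / 2 - W.a₁ * (x1 - x2) / 2 := by
      rw [hl, slope_of_X_ne hxx, hη1, hη2]
      simp only [negY]
      field_simp
      ring
    have hlint : v l ≤ 1 := by
      refine val_le_one_of_quadratic v h₁ (c := (l ^ 2 + W.a₁ * l - W.a₂ - x1 - x2) + W.a₂ + x1 + x2)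
        ?_ (by ring)
      exact val_add_le_one v (val_add_le_one v (val_add_le_one v hle h₂) hvx1) hvx2
    have hdx : x1 - x2 = X1 - X2 := by rw [hX1, hX2]; ring
    have hvd : v (x1 - x2) < v X2 := by rw [hdx]; exact hdiff
    have hL : v (l * (x1 - x2)) < v X2 := by
      rw [map_mul]
      exact lt_of_le_of_lt (mul_le_of_le_one_left' hlint) hvd
    have hRv : v ((η1 + η2) / 2 - W.a₁ * (x1 - x2) / 2) = v X2 := by
      have h3 : v ((η1 + η2) / 2) = v X2 := by rw [map_div₀, h2, div_one, hvsum]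
      rw [← h3]
      apply v.map_sub_eq_of_lt_left
      rw [h3, map_div₀, h2, div_one, map_mul]
      exact lt_of_le_of_lt (mul_le_of_le_one_left' h₁) hvd
    rw [hslope, hRv] at hL
    exact lt_irrefl _ hL

end Fermat.Agent.S05
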