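import Fermat.Agent.S05.Integral
import Fermat.Agent.S05.Congr
import Fermat.Agent.S05.Node
import Fermat.Agent.S05.Slope
import Fermat.Agent.S05.GoodRed
import Fermat.Agent.S05.MultVal

set_option autoImplicit false

namespace Fermat.Agent.S05

open WeierstrassCurve WeierstrassCurve.Affine WeierstrassCurve.Affine.Point

variable {K : Type*} [Field K] [DecidableEq K] (A : ValuationSubring K)
  {W : WeierstrassCurve.Affine K}

/-- the data of an "inertia-like" automorphism acting on points. -/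
structure GalData (A : ValuationSubring K) (W : WeierstrassCurve.Affine K) (σ : K →+* K)
    (s : W.Point →+ W.Point) : Prop where
  hs : ∀ P : W.Point, P ≠ 0 → s P ≠ 0 ∧ xc (s P) = σ (xc P) ∧ yc (s P) = σ (yc P)
  hσ : ∀ x, A.valuation x ≤ 1 → A.valuation (σ x - x) < 1

/-- integrality of the coefficients -/
structure IntData (A : ValuationSubring K) (W : WeierstrassCurve.Affine K) : Prop where
  h₁ : W.a₁ ∈ A
  h₂ : W.a₂ ∈ A
  h₃ : W.a₃ ∈ A
  h₄ : W.a₄ ∈ A
  h₆ : W.a₆ ∈ A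

/-- arithmetic data -/
structure PrimeData (A : ValuationSubring K) (p q : ℕ) : Prop where
  hp : p.Prime
  hp2 : p ≠ 2
  hq : q.Prime
  hpq : p ≠ q
  hqA : A.valuation (q : K) < 1

variable {A}

omit [DecidableEq K] in
lemma IntData.b₂ (I : IntData A W) : W.b₂ ∈ A := by
  have h4 : (4 : K) ∈ A := by exact_mod_cast natCast_mem A 4
  simp only [WeierstrassCurve.b₂]
  exact A.add_mem _ _ (pow_mem I.h₁ 2) (A.mul_mem _ _ h4 I.h₂)

omit [DecidableEq K] in
lemma IntData.b₄ (I : IntData A W) : W.b₄ ∈ A := by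
  have h2 : (2 : K) ∈ A := by exact_mod_cast natCast_mem A 2
  simp only [WeierstrassCurve.b₄]
  exact A.add_mem _ _ (A.mul_mem _ _ h2 I.h₄) (A.mul_mem _ _ I.h₁ I.h₃)

omit [DecidableEq K] in
lemma IntData.b₆ (I : IntData A W) : W.b₆ ∈ A := by
  have h4 : (4 : K) ∈ A := by exact_mod_cast natCast_mem A 4
  simp only [WeierstrassCurve.b₆]
  exact A.add_mem _ _ (pow_mem I.h₃ 2) (A.mul_mem _ _ h4 I.h₆)

omit [DecidableEq K] in
lemma IntData.b₈ (I : IntData A W) : W.b₈ ∈ A := by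
  have h4 : (4 : K) ∈ A := by exact_mod_cast natCast_mem A 4
  simp only [WeierstrassCurve.b₈]
  exact sub_mem (A.add_mem _ _ (sub_mem (A.add_mem _ _ (A.mul_mem _ _ (pow_mem I.h₁ 2) I.h₆)
    (A.mul_mem _ _ (A.mul_mem _ _ h4 I.h₂) I.h₆)) (A.mul_mem _ _ (A.mul_mem _ _ I.h₁ I.h₃) I.h₄))
    (A.mul_mem _ _ I.h₂ (pow_mem I.h₃ 2))) (pow_mem I.h₄ 2)

variable {p q : ℕ}

lemma tors_x (I : IntData A W) (D : PrimeData A p q) {R : W.Point} (hR : R ≠ 0)
    (hpR : p • R = 0) : A.valuation (xc R) ≤ 1 :=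
  torsion_x_integral A p q D.hp D.hp2 D.hq D.hpq D.hqA I.b₂ I.b₄ I.b₆ I.b₈ hR hpR

lemma tors_y (I : IntData A W) (D : PrimeData A p q) {R : W.Point} (hR : R ≠ 0)
    (hpR : p • R = 0) : A.valuation (yc R) ≤ 1 :=
  y_integral A I.h₁ I.h₂ I.h₃ I.h₄ I.h₆ hR (tors_x I D hR hpR)

variable {σ : K →+* K} {s : W.Point →+ W.Point}

lemma GalData.val_le (G : GalData A W σ s) {x : K} (hx : A.valuation x ≤ 1) :
    A.valuation (σ x) ≤ 1 := by
  have h := G.hσ x hx
  have : σ x = (σ x - x) + x := by ring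
  rw [this]
  exact Valuation.map_add_le _ h.le hx

/-- A `p`-torsion point with nonsingular reduction is fixed. -/
lemma fixed_of_nonsingular_red (I : IntData A W) (D : PrimeData A p q) (G : GalData A W σ s)
    {P : W.Point} (hP : P ≠ 0) (hpP : p • P = 0)
    (hns : A.valuation (W.a₁ * yc P - (3 * xc P ^ 2 + 2 * W.a₂ * xc P + W.a₄)) = 1 ∨
      A.valuation (2 * yc P + W.a₁ * xc P + W.a₃) = 1) : s P = P := by
  obtain ⟨hs0, hsx, hsy⟩ := G.hs P hP
  have hx := tors_x I D hP hpP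
  have hy := tors_y I D hP hpP
  have key := sub_eq_zero_or_nonintegral A.valuation
    ((A.valuation_le_one_iff _).2 I.h₁) ((A.valuation_le_one_iff _).2 I.h₂)
    ((A.valuation_le_one_iff _).2 I.h₃) ((A.valuation_le_one_iff _).2 I.h₄)
    hs0 hP (by rw [hsx]; exact G.val_le hx) (by rw [hsy]; exact G.val_le hy) hx hy
    (by rw [hsx]; exact G.hσ _ hx) (by rw [hsy]; exact G.hσ _ hy) hns
  by_contra hne
  have hne' : s P - P ≠ 0 := sub_ne_zero.2 hne
  rcases key with h | h
  · exact hne' h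
  · have hp0 : p • (s P - P) = 0 := by
      rw [smul_sub, ← map_nsmul, hpP, _root_.map_zero, sub_zero]
    exact absurd (tors_x I D hne' hp0) (not_le.2 h)

/-- if a multiple `j • P` (`p ∤ j`) is fixed, then so is `P`. -/
lemma fixed_of_multiple (hp : p.Prime) {P : W.Point} (hpP : p • P = 0) {j : ℤ}
    (hj : ¬ (p : ℤ) ∣ j) (h : s (j • P) = j • P) : s P = P := by
  have hcop : IsCoprime (p : ℤ) j :=
    (Prime.coprime_iff_not_dvd (Nat.prime_iff_prime_int.1 hp)).2 hj
  obtain ⟨a, b, hab⟩ := hcop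
  have h1 : (p : ℤ) • (s P - P) = 0 := by
    rw [smul_sub, ← map_zsmul, natCast_zsmul, hpP, _root_.map_zero, sub_zero]
  have h2 : j • (s P - P) = 0 := by
    rw [smul_sub, ← map_zsmul, h, sub_self]
  have h3 : (a * p + b * j) • (s P - P) = 0 := by
    rw [add_smul, mul_smul, mul_smul, h1, h2, smul_zero, smul_zero, add_zero]
  rw [hab, one_smul] at h3
  exact sub_eq_zero.1 h3

/-- **Good reduction.** -/
theorem fixed_good (I : IntData A W) (D : PrimeData A p q) (G : GalData A W σ s)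
    (hΔ : A.valuation W.Δ = 1) {P : W.Point} (hpP : p • P = 0) : s P = P := by
  by_cases hP : P = 0
  · rw [hP, _root_.map_zero]
  · exact fixed_of_nonsingular_red I D G hP hpP
      (hns_of_unit_disc A I.h₁ I.h₂ I.h₃ I.h₄ hΔ hP (tors_x I D hP hpP)
        (tors_y I D hP hpP))

lemma zsmul_eq_zero_iff_dvd (hp : p.Prime) {P : W.Point} (hP : P ≠ 0) (hpP : p • P = 0) (j : ℤ) :
    j • P = 0 ↔ (p : ℤ) ∣ j := by
  have : Fact p.Prime := ⟨hp⟩
  have hord : addOrderOf P = p := addOrderOf_eq_prime hpP hP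
  rw [← hord]; exact (addOrderOf_dvd_iff_zsmul_eq_zero).symm

lemma exists_nat_rep (hp : p.Prime) {P : W.Point} (hpP : p • P = 0) (n : ℤ)
    (hn : ¬ (p : ℤ) ∣ n) : ∃ m : ℕ, 1 ≤ m ∧ m ≤ p - 1 ∧ n • P = m • P := by
  have hp0 : (0 : ℤ) < p := by exact_mod_cast hp.pos
  have h1 : 0 ≤ n % p := Int.emod_nonneg _ hp0.ne'
  have h2 : n % p < p := Int.emod_lt_of_pos _ hp0
  have h3 : n % p ≠ 0 := fun h => hn (Int.dvd_of_emod_eq_zero h)
  refine ⟨(n % p).toNat, by omega, by omega, ?_⟩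
  have h4 : ((n % p).toNat : ℤ) = n % p := Int.toNat_of_nonneg h1
  rw [← natCast_zsmul, h4]
  conv_lhs => rw [← Int.mul_ediv_add_emod n p]
  rw [add_smul, mul_smul, smul_comm, natCast_zsmul, hpP, smul_zero, zero_add]

/-- **Multiplicative reduction**, with the valuation of the "node parameter" `c` a `p`-th power of
the valuation of a fixed element. -/
theorem fixed_mult (I : IntData A W) (D : PrimeData A p q) (G : GalData A W σ s) (hq2 : q ≠ 2)
    {x0 c b' e0 : K} (H : ShiftData W x0 c b')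
    (hσ₁ : σ W.a₁ = W.a₁) (hσ₃ : σ W.a₃ = W.a₃) (hσx0 : σ x0 = x0)
    (hx0 : A.valuation x0 ≤ 1) (hb' : A.valuation b' = 1) (he0 : e0 ≠ 0) (hσe : σ e0 = e0)
    (hcv : A.valuation c = A.valuation e0 ^ p) (hc1 : A.valuation c < 1)
    {P : W.Point} (hpP : p • P = 0) : s P = P := by
  by_cases hP : P = 0
  · rw [hP, _root_.map_zero]
  have hp := D.hp
  have hp3 : 3 ≤ p := by
    have := hp.two_le; have := D.hp2; omega
  have h2 : A.valuation (2 : K) = 1 := by
    have := valuation_natCast_eq_one A D.hq D.hqA (n := 2) (by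
      intro h; exact hq2 ((Nat.prime_dvd_prime_iff_eq D.hq Nat.prime_two).1 h))
    simpa using this
  have v₁ := (A.valuation_le_one_iff _).2 I.h₁
  have v₂ := (A.valuation_le_one_iff _).2 I.h₂
  have v₃ := (A.valuation_le_one_iff _).2 I.h₃
  have v₄ := (A.valuation_le_one_iff _).2 I.h₄
  have hz := zsmul_eq_zero_iff_dvd hp hP hpP
  have hpj : ∀ j : ℤ, p • (j • P) = 0 := fun j => by rw [smul_comm, hpP, smul_zero]
  by_cases hex : ∃ j : ℤ, ¬ (p : ℤ) ∣ j ∧ A.valuation (xc (j • P) - x0) = 1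
  · obtain ⟨j, hj, hX⟩ := hex
    have hj0 : j • P ≠ 0 := fun h => hj ((hz j).1 h)
    apply fixed_of_multiple hp hpP hj
    exact fixed_of_nonsingular_red I D G hj0 (hpj j)
      (nonsingular_of_not_node A.valuation H v₁ v₂ v₃ v₄ h2 hb' hc1 hj0
        (tors_x I D hj0 (hpj j)) (tors_y I D hj0 (hpj j)) hX)
  · have hlt : ∀ j : ℤ, ¬ (p : ℤ) ∣ j → A.valuation (xc (j • P) - x0) < 1 := by
      intro j hj
      have hj0 : j • P ≠ 0 := fun h => hj ((hz j).1 h)
      refine lt_of_le_of_ne (Valuation.map_sub_le _ (tors_x I D hj0 (hpj j)) hx0) ?_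
      intro h
      exact hex ⟨j, hj, h⟩
    obtain ⟨j0, hj0, hmax⟩ := Finset.exists_max_image (Finset.Icc 1 (p - 1))
      (fun j : ℕ => A.valuation (xc (j • P) - x0)) ⟨1, by simp; omega⟩
    rw [Finset.mem_Icc] at hj0
    have hj0nd : ¬ (p : ℤ) ∣ (j0 : ℤ) := by
      intro h
      have := Nat.le_of_dvd (by omega) (Int.natCast_dvd_natCast.1 h)
      omega
    apply fixed_of_multiple hp hpP hj0nd
    obtain ⟨P', hP'⟩ : ∃ P', P' = (j0 : ℤ) • P := ⟨_, rfl⟩
    rw [← hP']
    have hP'0 : P' ≠ 0 := by rw [hP']; exact fun h => hj0nd ((hz _).1 h)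
    have hpP' : p • P' = 0 := by rw [hP']; exact hpj _
    have hz' := zsmul_eq_zero_iff_dvd hp hP'0 hpP'
    have hpi : Prime (p : ℤ) := Nat.prime_iff_prime_int.1 hp
    have hmulnd : ∀ j : ℤ, ¬ (p : ℤ) ∣ j → ¬ (p : ℤ) ∣ j * j0 := by
      intro j hj h
      rcases hpi.dvd_or_dvd h with h | h
      · exact hj h
      · exact hj0nd h
    have h2nd : ∀ j : ℤ, ¬ (p : ℤ) ∣ j → ¬ (p : ℤ) ∣ 2 * j := by
      intro j hj h
      rcases hpi.dvd_or_dvd h with h | h
      · have := Int.le_of_dvd (by norm_num) h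
        omega
      · exact hj h
    have hsm : ∀ j : ℤ, j • P' = (j * j0) • P := fun j => by rw [hP', mul_smul]
    have hne0 : ∀ j : ℤ, ¬ (p : ℤ) ∣ j → j • P' ≠ 0 := fun j hj h => hj ((hz' j).1 h)
    have heta : ∀ j : ℤ, ¬ (p : ℤ) ∣ j →
        2 * yc (j • P') + W.a₁ * xc (j • P') + W.a₃ ≠ 0 := by
      intro j hj h
      have h1 := (add_self_eq_zero_iff (hne0 j hj)).2 h
      rw [← two_zsmul, smul_smul] at h1
      exact h2nd j hj ((hz' _).1 h1)
    have hprod : ∀ j : ℤ, ¬ (p : ℤ) ∣ j →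
        (xc (j • P') - x0) * (4 * (xc (j • P') - x0) ^ 2 + b' * (xc (j • P') - x0) + 4 * c) ≠ 0 := by
      intro j hj
      rw [← H.eta_sq (hne0 j hj)]
      exact pow_ne_zero 2 (heta j hj)
    have hc0 : c ≠ 0 := by
      intro h
      rw [h, _root_.map_zero] at hcv
      exact (pow_ne_zero p ((A.valuation.ne_zero_iff).2 he0)) hcv.symm
    have hxne : ∀ i j : ℤ, ¬ (p : ℤ) ∣ i → ¬ (p : ℤ) ∣ j → ¬ (p : ℤ) ∣ i + j → ¬ (p : ℤ) ∣ i - j →
        xc (i • P') ≠ xc (j • P') := by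
      intro i j hi hj hij hij'
      apply xc_ne_of_add_sub_ne_zero (hne0 i hi) (hne0 j hj)
      · rw [← add_smul]; exact hne0 _ hij
      · rw [← sub_smul]; exact hne0 _ hij'
    have key := mult_val A.valuation p hp D.hp2 (fun j => xc (j • P') - x0) c b' hc0 hb' h2
      (fun j hj => left_ne_zero_of_mul (hprod j hj))
      (fun j hj => by
        rw [hsm]; exact hlt _ (hmulnd j hj))
      (fun i j hij => by
        have : i • P' = -(j • P') := by
          rw [eq_neg_iff_add_eq_zero, ← add_smul]; exact (hz' _).2 hij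
        rw [this, xc_neg])
      (fun j hj => by
        obtain ⟨m, hm1, hm2, hm⟩ := exists_nat_rep hp hpP (j * j0) (hmulnd j hj)
        rw [hsm, hm, one_smul, hP', natCast_zsmul]
        exact hmax m (by rw [Finset.mem_Icc]; exact ⟨hm1, hm2⟩))
      (fun i j hi hj hij hij' h => hxne i j hi hj hij hij' (by simpa using h))
      (fun i j hi hj hij hij' => by
        rw [add_smul, sub_smul]
        exact H.prod (hne0 i hi) (hne0 j hj) (hxne i j hi hj hij hij'))
      (fun j hj => right_ne_zero_of_mul (hprod j hj))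
      (fun j hj => by
        have h1 : (2 * j) • P' = j • P' + j • P' := by rw [two_mul, add_smul]
        rw [h1]
        refine H.dbl (hne0 j hj) ?_
        rw [← h1]; exact hne0 _ (h2nd j hj))
    simp only [one_smul] at key
    have hXe : A.valuation (xc P' - x0) = A.valuation (e0 ^ 2) := by
      have h1 : A.valuation (xc P' - x0) ^ p = (A.valuation (e0 ^ 2)) ^ p := by
        rw [key, hcv, map_pow, ← pow_mul, ← pow_mul, mul_comm]
      exact (pow_left_inj₀ zero_le zero_le (by omega)).1 h1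
    have hXlt : A.valuation (xc P' - x0) < 1 := by
      have := hlt j0 hj0nd
      rwa [← hP'] at this
    have hcX : A.valuation c < A.valuation (xc P' - x0) := by
      by_contra hle
      rw [not_lt] at hle
      have h1 : A.valuation (xc P' - x0) ^ p ≤ A.valuation c ^ p := pow_le_pow_left₀ zero_le hle p
      have h2' : A.valuation c ^ p < A.valuation c ^ 2 :=
        pow_lt_pow_right_of_lt_one₀ (zero_lt_iff.2 ((A.valuation.ne_zero_iff).2 hc0)) hc1 (by omega)
      rw [key] at h1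
      exact absurd h1 (not_le.2 h2')
    refine fixed_of_val_eq A.valuation H σ s G.hs G.hσ v₁ v₂ hσ₁ hσ₃ hσx0 hx0 h2 hb'
      (pow_ne_zero 2 he0) (by rw [map_pow, hσe]) hP'0 hXe hXlt hcX ?_
    by_cases h0 : s P' - P' = 0
    · exact Or.inl h0
    · refine Or.inr (tors_x I D h0 ?_)
      rw [smul_sub, ← map_nsmul, hpP', _root_.map_zero, sub_zero]

end Fermat.Agent.S05
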