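import Mathlib

set_option autoImplicit false

namespace Fermat.Agent.S05

open WeierstrassCurve WeierstrassCurve.Affine WeierstrassCurve.Affine.Point

variable {F : Type*} [Field F] {W : WeierstrassCurve.Affine F}

/-- x-coordinate of a point, with value `0` at the origin. -/
def xc : W.Point → F
  | .zero => 0
  | .some x _ _ => x

/-- y-coordinate of a point, with value `0` at the origin. -/
def yc : W.Point → F
  | .zero => 0
  | .some _ y _ => y

@[simp] lemma xc_some {x y : F} (h : W.Nonsingular x y) : xc (Point.some x y h) = x := rfl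
@[simp] lemma yc_some {x y : F} (h : W.Nonsingular x y) : yc (Point.some x y h) = y := rfl
@[simp] lemma xc_zero : xc (0 : W.Point) = 0 := rfl
@[simp] lemma yc_zero : yc (0 : W.Point) = 0 := rfl

lemma xc_neg (P : W.Point) : xc (-P) = xc P := by
  cases P <;> rfl

lemma yc_neg {P : W.Point} (hP : P ≠ 0) : yc (-P) = W.negY (xc P) (yc P) := by
  cases P with
  | zero => exact absurd rfl hP
  | some x y h => rfl

lemma nonsingular_xc_yc {P : W.Point} (hP : P ≠ 0) : W.Nonsingular (xc P) (yc P) := by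
  cases P with
  | zero => exact absurd rfl hP
  | some x y h => exact h

lemma eq_some_xc_yc {P : W.Point} (hP : P ≠ 0) :
    P = Point.some (xc P) (yc P) (nonsingular_xc_yc hP) := by
  cases P with
  | zero => exact absurd rfl hP
  | some x y h => rfl

lemma equation_xc_yc {P : W.Point} (hP : P ≠ 0) :
    (yc P) ^ 2 + W.a₁ * xc P * yc P + W.a₃ * yc P
      = (xc P) ^ 3 + W.a₂ * (xc P) ^ 2 + W.a₄ * xc P + W.a₆ :=
  (equation_iff _ _).1 (nonsingular_xc_yc hP).1

lemma xc_eq_iff {P Q : W.Point} (hP : P ≠ 0) (hQ : Q ≠ 0) :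
    xc P = xc Q ↔ P = Q ∨ P = -Q := by
  cases P with
  | zero => exact absurd rfl hP
  | some x y h =>
    cases Q with
    | zero => exact absurd rfl hQ
    | some x' y' h' => exact X_eq_iff

variable [DecidableEq F]

lemma xc_ne_of_add_sub_ne_zero {P Q : W.Point} (hP : P ≠ 0) (hQ : Q ≠ 0) (h1 : P + Q ≠ 0)
    (h2 : P - Q ≠ 0) : xc P ≠ xc Q := by
  intro h
  rcases (xc_eq_iff hP hQ).1 h with h | h
  · exact h2 (by rw [h, sub_self])
  · exact h1 (by rw [h, neg_add_cancel])

/-- product formula -/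
lemma xc_add_mul_xc_sub {P Q : W.Point} (hP : P ≠ 0) (hQ : Q ≠ 0) (hx : xc P ≠ xc Q) :
    xc (P + Q) * xc (P - Q) * (xc P - xc Q) ^ 2
      = (xc P) ^ 2 * (xc Q) ^ 2 - W.b₄ * (xc P * xc Q) - W.b₆ * (xc P + xc Q) - W.b₈ := by
  cases P with
  | zero => exact absurd rfl hP
  | some x1 y1 h1 =>
    cases Q with
    | zero => exact absurd rfl hQ
    | some x2 y2 h2 =>
      simp only [xc_some] at hx ⊢
      rw [sub_eq_add_neg, neg_some, add_of_X_ne hx, add_of_X_ne hx]
      simp only [xc_some, addX, slope_of_X_ne hx, negY, b₄, b₆, b₈]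
      have e1 := (equation_iff _ _).1 h1.1
      have e2 := (equation_iff _ _).1 h2.1
      have hd : x1 - x2 ≠ 0 := sub_ne_zero.2 hx
      field_simp
      grind

/-- sum formula -/
lemma xc_add_add_xc_sub {P Q : W.Point} (hP : P ≠ 0) (hQ : Q ≠ 0) (hx : xc P ≠ xc Q) :
    (xc (P + Q) + xc (P - Q)) * (xc P - xc Q) ^ 2
      = 2 * (xc P * xc Q) * (xc P + xc Q) + W.b₂ * (xc P * xc Q) + W.b₄ * (xc P + xc Q) + W.b₆ := by
  cases P with
  | zero => exact absurd rfl hP
  | some x1 y1 h1 =>
    cases Q with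
    | zero => exact absurd rfl hQ
    | some x2 y2 h2 =>
      simp only [xc_some] at hx ⊢
      rw [sub_eq_add_neg, neg_some, add_of_X_ne hx, add_of_X_ne hx]
      simp only [xc_some, addX, slope_of_X_ne hx, negY, b₂, b₄, b₆]
      have e1 := (equation_iff _ _).1 h1.1
      have e2 := (equation_iff _ _).1 h2.1
      have hd : x1 - x2 ≠ 0 := sub_ne_zero.2 hx
      field_simp
      grind

/-- duplication formula -/
lemma xc_dbl {P : W.Point} (hP : P ≠ 0) (h2 : P + P ≠ 0) :
    xc (P + P) * (4 * (xc P) ^ 3 + W.b₂ * (xc P) ^ 2 + 2 * W.b₄ * xc P + W.b₆)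
      = (xc P) ^ 4 - W.b₄ * (xc P) ^ 2 - 2 * W.b₆ * xc P - W.b₈ := by
  cases P with
  | zero => exact absurd rfl hP
  | some x1 y1 h1 =>
    have hy : y1 ≠ W.negY x1 y1 := by
      intro hy
      exact h2 (add_self_of_Y_eq hy)
    rw [add_self_of_Y_ne hy]
    have e1 := (equation_iff _ _).1 h1.1
    obtain ⟨D, hD⟩ : ∃ D, D = y1 - W.negY x1 y1 := ⟨_, rfl⟩
    have hd : D ≠ 0 := by
      rw [hD]; exact sub_ne_zero.2 hy
    simp only [xc_some, addX, slope_of_Y_ne rfl hy, b₂, b₄, b₆, b₈, ← hD]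
    simp only [negY] at hD
    field_simp
    grind

omit [DecidableEq F] in
/-- `ψ₂² = 4x³+b₂x²+2b₄x+b₆` in terms of `y`. -/
lemma psi2_sq {P : W.Point} (hP : P ≠ 0) :
    (2 * yc P + W.a₁ * xc P + W.a₃) ^ 2
      = 4 * (xc P) ^ 3 + W.b₂ * (xc P) ^ 2 + 2 * W.b₄ * xc P + W.b₆ := by
  have e1 := equation_xc_yc hP
  simp only [b₂, b₄, b₆]
  linear_combination 4 * e1

lemma add_self_eq_zero_iff {P : W.Point} (hP : P ≠ 0) :
    P + P = 0 ↔ 2 * yc P + W.a₁ * xc P + W.a₃ = 0 := by
  cases P with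
  | zero => exact absurd rfl hP
  | some x1 y1 h1 =>
    simp only [xc_some, yc_some]
    constructor
    · intro h
      by_contra hne
      have hy : y1 ≠ W.negY x1 y1 := by
        intro hy
        apply hne
        simp only [negY] at hy
        linear_combination hy
      rw [add_self_of_Y_ne hy] at h
      exact some_ne_zero _ h
    · intro h
      apply add_self_of_Y_eq
      simp only [negY]
      linear_combination h

end Fermat.Agent.S05
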