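import Mathlib

set_option autoImplicit false

namespace Fermat.Agent.S05

variable {K : Type*} [Field K] {Γ₀ : Type*} [LinearOrderedCommGroupWithZero Γ₀]
  (v : Valuation K Γ₀)

open Classical in
/-- additive valuation with values in an ordered additive group (junk value `0` at `0`). -/
noncomputable def ord (x : K) : Additive Γ₀ˣ :=
  if h : x = 0 then 0 else Additive.ofMul (Units.mk0 (v x) ((v.ne_zero_iff).2 h))⁻¹

variable {v}

lemma ord_of_ne {x : K} (h : x ≠ 0) :
    ord v x = Additive.ofMul (Units.mk0 (v x) ((v.ne_zero_iff).2 h))⁻¹ := by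
  simp [ord, h]

lemma ord_mul {x y : K} (hx : x ≠ 0) (hy : y ≠ 0) : ord v (x * y) = ord v x + ord v y := by
  rw [ord_of_ne hx, ord_of_ne hy, ord_of_ne (mul_ne_zero hx hy), ← ofMul_mul, ← mul_inv]
  congr 2
  ext
  simp

lemma ord_pow {x : K} (hx : x ≠ 0) (n : ℕ) : ord v (x ^ n) = n • ord v x := by
  induction n with
  | zero =>
    simp only [pow_zero, zero_smul]
    rw [ord_of_ne one_ne_zero]
    simp
  | succ n ih => rw [pow_succ, ord_mul (pow_ne_zero n hx) hx, ih, succ_nsmul]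

lemma ord_le_iff {x y : K} (hx : x ≠ 0) (hy : y ≠ 0) : ord v x ≤ ord v y ↔ v y ≤ v x := by
  rw [ord_of_ne hx, ord_of_ne hy, Additive.ofMul_le, inv_le_inv_iff, ← Units.val_le_val]
  simp

lemma ord_lt_iff {x y : K} (hx : x ≠ 0) (hy : y ≠ 0) : ord v x < ord v y ↔ v y < v x := by
  rw [← not_le, ← not_le, ord_le_iff hy hx]

lemma ord_eq_iff {x y : K} (hx : x ≠ 0) (hy : y ≠ 0) : ord v x = ord v y ↔ v x = v y := by
  rw [le_antisymm_iff, le_antisymm_iff, ord_le_iff hx hy, ord_le_iff hy hx, and_comm]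

lemma ord_one : ord v (1 : K) = 0 := by
  rw [ord_of_ne one_ne_zero]; simp

lemma ord_pos_iff {x : K} (hx : x ≠ 0) : 0 < ord v x ↔ v x < 1 := by
  rw [← ord_one (v := v), ord_lt_iff one_ne_zero hx, map_one]

lemma ord_eq_zero_iff {x : K} (hx : x ≠ 0) : ord v x = 0 ↔ v x = 1 := by
  rw [← ord_one (v := v), ord_eq_iff hx one_ne_zero, map_one]

lemma ord_neg (x : K) : ord v (-x) = ord v x := by
  by_cases hx : x = 0
  · simp [hx]
  · rw [ord_eq_iff (neg_ne_zero.2 hx) hx, Valuation.map_neg]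

lemma min_le_ord_add {x y : K} (hx : x ≠ 0) (hy : y ≠ 0) (hxy : x + y ≠ 0) :
    min (ord v x) (ord v y) ≤ ord v (x + y) := by
  rcases v.map_add' x y with h | h
  · exact (min_le_left _ _).trans ((ord_le_iff hx hxy).2 h)
  · exact (min_le_right _ _).trans ((ord_le_iff hy hxy).2 h)

lemma ord_add_of_ne {x y : K} (hx : x ≠ 0) (hy : y ≠ 0) (h : ord v x ≠ ord v y) :
    x + y ≠ 0 ∧ ord v (x + y) = min (ord v x) (ord v y) := by
  have hne : v x ≠ v y := fun h' => h ((ord_eq_iff hx hy).2 h')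
  have hv := Valuation.map_add_of_distinct_val v hne
  have hxy : x + y ≠ 0 := by
    intro h0
    rw [h0, map_zero] at hv
    have : v x ≤ 0 := hv ▸ le_max_left _ _
    exact (v.ne_zero_iff.2 hx) (le_antisymm this zero_le)
  refine ⟨hxy, ?_⟩
  rcases lt_or_gt_of_ne hne with h1 | h1
  · rw [max_eq_right h1.le] at hv
    have hm : min (ord v x) (ord v y) = ord v y := min_eq_right ((ord_le_iff hy hx).2 h1.le)
    rw [hm, ord_eq_iff hxy hy, hv]
  · rw [max_eq_left h1.le] at hv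
    have hm : min (ord v x) (ord v y) = ord v x := min_eq_left ((ord_le_iff hx hy).2 h1.le)
    rw [hm, ord_eq_iff hxy hx, hv]

lemma min_le_ord_sub {x y : K} (hx : x ≠ 0) (hy : y ≠ 0) (hxy : x - y ≠ 0) :
    min (ord v x) (ord v y) ≤ ord v (x - y) := by
  rw [sub_eq_add_neg] at hxy ⊢
  rw [← ord_neg y]
  exact min_le_ord_add hx (neg_ne_zero.2 hy) hxy

lemma ord_sub_of_ne {x y : K} (hx : x ≠ 0) (hy : y ≠ 0) (h : ord v x ≠ ord v y) :
    x - y ≠ 0 ∧ ord v (x - y) = min (ord v x) (ord v y) := by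
  rw [sub_eq_add_neg, ← ord_neg y]
  exact ord_add_of_ne hx (neg_ne_zero.2 hy) (by rwa [ord_neg])

end Fermat.Agent.S05
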