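import Fermat.Agent.S05.Formulas

set_option autoImplicit false

namespace Fermat.Agent.S05

open WeierstrassCurve WeierstrassCurve.Affine WeierstrassCurve.Affine.Point

variable {F : Type*} [Field F] {W : WeierstrassCurve.Affine F}

/-- `x0` is the `x`-coordinate of a 2-torsion point, `b' = b₂'`, `2c = b₄'` are the invariants of
the curve translated by `x0`. -/
structure ShiftData (W : WeierstrassCurve.Affine F) (x0 c b' : F) : Prop where
  h0 : 4 * x0 ^ 3 + W.b₂ * x0 ^ 2 + 2 * W.b₄ * x0 + W.b₆ = 0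
  hc : 2 * c = W.b₄ + W.b₂ * x0 + 6 * x0 ^ 2
  hb : b' = W.b₂ + 12 * x0
  h2 : (2 : F) ≠ 0

variable {x0 c b' : F}

lemma ShiftData.b₈_eq (H : ShiftData W x0 c b') :
    W.b₈ = -c ^ 2 - 3 * x0 * W.b₆ - 3 * x0 ^ 2 * W.b₄ - x0 ^ 3 * W.b₂ - 3 * x0 ^ 4 := by
  have h4 : (4 : F) ≠ 0 := by
    have : (4 : F) = 2 * 2 := by norm_num
    rw [this]; exact mul_ne_zero H.h2 H.h2
  have hr := W.b_relation
  apply mul_left_cancel₀ h4
  have h0 := H.h0
  have hc := H.hc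
  linear_combination hr + (2 * c + W.b₄ + W.b₂ * x0 + 6 * x0 ^ 2) * hc + (W.b₂ + 12 * x0) * h0

lemma ShiftData.psi (H : ShiftData W x0 c b') (x : F) :
    4 * x ^ 3 + W.b₂ * x ^ 2 + 2 * W.b₄ * x + W.b₆
      = (x - x0) * (4 * (x - x0) ^ 2 + b' * (x - x0) + 4 * c) := by
  have h0 := H.h0
  have hc := H.hc
  rw [H.hb]
  linear_combination h0 - 2 * (x - x0) * hc

lemma ShiftData.dpsi (H : ShiftData W x0 c b') (x : F) :
    12 * x ^ 2 + 2 * W.b₂ * x + 2 * W.b₄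
      = 12 * (x - x0) ^ 2 + 2 * b' * (x - x0) + 4 * c := by
  have hc := H.hc
  rw [H.hb]
  linear_combination - 2 * hc

lemma ShiftData.eta_sq (H : ShiftData W x0 c b') {P : W.Point} (hP : P ≠ 0) :
    (2 * yc P + W.a₁ * xc P + W.a₃) ^ 2
      = (xc P - x0) * (4 * (xc P - x0) ^ 2 + b' * (xc P - x0) + 4 * c) := by
  rw [psi2_sq hP, H.psi]

variable [DecidableEq F]

lemma ShiftData.prod (H : ShiftData W x0 c b') {P Q : W.Point} (hP : P ≠ 0) (hQ : Q ≠ 0)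
    (hx : xc P ≠ xc Q) :
    (xc (P + Q) - x0) * (xc (P - Q) - x0) * ((xc P - x0) - (xc Q - x0)) ^ 2
      = ((xc P - x0) * (xc Q - x0) - c) ^ 2 := by
  have e1 := xc_add_mul_xc_sub hP hQ hx
  have e2 := xc_add_add_xc_sub hP hQ hx
  have h8 := H.b₈_eq
  have h0 := H.h0
  have hc := H.hc
  rw [h8] at e1
  grind

lemma ShiftData.dbl (H : ShiftData W x0 c b') {P : W.Point} (hP : P ≠ 0) (h2P : P + P ≠ 0) :
    (xc (P + P) - x0) * ((xc P - x0) * (4 * (xc P - x0) ^ 2 + b' * (xc P - x0) + 4 * c))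
      = ((xc P - x0) ^ 2 - c) ^ 2 := by
  have e1 := xc_dbl hP h2P
  have h8 := H.b₈_eq
  have h0 := H.h0
  have hc := H.hc
  rw [← H.psi]
  rw [h8] at e1
  grind

end Fermat.Agent.S05
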